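import Fermat.Agent.S51.Dup

set_option autoImplicit false
set_option linter.unusedSectionVars false

namespace Fermat.Agent.S51

open WeierstrassCurve WeierstrassCurve.Affine

variable {F : Type*} [Field F] [DecidableEq F] {W : WeierstrassCurve.Affine F}

def xc : W.Point → F
  | .zero => 0
  | .some x _ _ => x

@[simp] lemma xc_some {x y : F} (h : W.Nonsingular x y) : xc (Point.some x y h) = x := rfl

lemma xc_neg (P : W.Point) : xc (-P) = xc P := by
  cases P with
  | zero => rfl
  | some x y h => rfl

lemma eq_or_eq_neg_of_xc_eq {P Q : W.Point} (hP : P ≠ 0) (hQ : Q ≠ 0) (h : xc P = xc Q) :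
    P = Q ∨ P = -Q := by
  apply Point.eq_or_eq_neg_of_xRep_eq_xRep
  cases P with
  | zero => exact absurd rfl hP
  | some x y hxy =>
    cases Q with
    | zero => exact absurd rfl hQ
    | some x' y' hxy' =>
      simp only [xc_some] at h
      subst h
      simp

lemma two_nsmul_eq_zero_iff {x y : F} (h : W.Nonsingular x y) :
    (2 • Point.some x y h = 0) ↔ f2 W x = 0 := by
  rw [two_nsmul, f2_eq_sq h.1]
  constructor
  · intro h2
    by_contra hne
    have hy : y ≠ W.negY x y := fun hy => hne (by rw [← hy]; simp)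
    rw [Point.add_self_of_Y_ne hy] at h2
    exact Point.some_ne_zero _ h2
  · intro h0
    have hy : y = W.negY x y := by
      have := pow_eq_zero_iff (n := 2) (by norm_num) |>.mp h0
      exact sub_eq_zero.mp this
    exact Point.add_self_of_Y_eq hy

lemma xc_two_nsmul {P : W.Point} (hP : P ≠ 0) (h2 : 2 • P ≠ 0) :
    f2 W (xc P) ≠ 0 ∧ xc (2 • P) * f2 W (xc P) = phi2 W (xc P) := by
  cases P with
  | zero => exact absurd rfl hP
  | some x y h =>
    have hf : f2 W x ≠ 0 := fun h0 => h2 ((two_nsmul_eq_zero_iff h).mpr h0)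
    refine ⟨hf, ?_⟩
    have hy : y ≠ W.negY x y := by
      intro hy
      apply hf
      rw [f2_eq_sq h.1, ← hy]; simp
    rw [two_nsmul, Point.add_self_of_Y_ne hy]
    simp only [xc_some]
    exact dup_x h.1 hy

end Fermat.Agent.S51
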