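import Mathlib

set_option autoImplicit false

namespace Fermat.Agent.S51

/-- The rational points with `u v ≠ 0` of the cubic model `u - v + u v (5 + u + 9 v) = 0` of
`X_0(15)`, given the rational points of `y ^ 2 = x (x + 9) (x - 16)` (module D) as `hD`. -/
theorem cubic_points_of_descent
    (hD : ∀ x y : ℚ, y ^ 2 = x * (x + 9) * (x - 16) →
      x = 0 ∨ x = -9 ∨ x = 16 ∨ x = 36 ∨ x = -4)
    (u v : ℚ) (hu : u ≠ 0) (hv : v ≠ 0) (h : u - v + u * v * (5 + u + 9 * v) = 0) :
    (u = -1/2 ∧ v = -1/2) ∨ (u = 2 ∧ v = -2/9) ∨ (u = 2 ∧ v = -1/2) ∨ (u = -1/2 ∧ v = -2/9) := by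
  have hxy : (36 * (u * (1 + u * v) - v * (9 * (u * v) - 1))) ^ 2 =
      (-36 * (u * v)) * (-36 * (u * v) + 9) * (-36 * (u * v) - 16) := by
    linear_combination (1296 * (u - v + u * v * (5 + u + 9 * v)) - 12960 * (u * v)) * h
  rcases hD _ _ hxy with hx | hx | hx | hx | hx
  · exfalso
    have : u * v = 0 := by linarith
    rcases mul_eq_zero.mp this with h0 | h0
    · exact hu h0
    · exact hv h0
  · -- u v = 1/4
    have hc : u * v = 1 / 4 := by linarith
    have hs : u + v = -1 := by
      have := h
      rw [hc] at this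
      linarith
    have hu2 : (u + 1 / 2) ^ 2 = 0 := by linear_combination u * hs - hc
    have hu' : u = -1 / 2 := by
      have := pow_eq_zero_iff (two_ne_zero) |>.mp hu2
      linarith
    left
    exact ⟨hu', by linarith⟩
  · -- u v = -4/9
    have hc : u * v = -4 / 9 := by linarith
    have hs : u = 4 + 9 * v := by
      have := h
      rw [hc] at this
      linarith
    have hv2 : (3 * v + 2 / 3) ^ 2 = 0 := by
      rw [hs] at hc
      linear_combination hc
    have hv' : v = -2 / 9 := by
      have := pow_eq_zero_iff (two_ne_zero) |>.mp hv2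
      linarith
    right; left
    exact ⟨by rw [hs, hv']; norm_num, hv'⟩
  · -- u v = -1
    have hc : u * v = -1 := by linarith
    have hv' : v = -1 / 2 := by
      have := h
      rw [hc] at this
      linarith
    have hu' : u = 2 := by
      rw [hv'] at hc
      linarith
    right; right; left
    exact ⟨hu', hv'⟩
  · -- u v = 1/9
    have hc : u * v = 1 / 9 := by linarith
    have hu' : u = -1 / 2 := by
      have := h
      rw [hc] at this
      linarith
    have hv' : v = -2 / 9 := by
      rw [hu'] at hc
      linarith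
    right; right; right
    exact ⟨hu', hv'⟩

end Fermat.Agent.S51
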