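import Fermat.Agent.S51.DescentMain

set_option autoImplicit false

namespace Fermat.Agent.S51

namespace Descent

lemma E2_aux (X Y : ℚ) (hX : 81 < X) (h : Y ^ 2 = X * (X - 1) * (X - 81)) : False := by
  have hn : (0 : ℤ) < (X.den : ℤ) := by exact_mod_cast X.den_pos
  have hnq : (0 : ℚ) < (X.den : ℚ) := by exact_mod_cast X.den_pos
  have hXeq : X = (X.num : ℚ) / (X.den : ℚ) := (Rat.num_div_den X).symm
  have hmn : 81 * (X.den : ℤ) < X.num := by
    have h1 : (81 : ℚ) * (X.den : ℚ) < (X.num : ℚ) := by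
      rw [hXeq] at hX
      exact (lt_div_iff₀ hnq).mp hX
    exact_mod_cast h1
  have hsq : IsSquare (((X.den : ℤ) * X.num * (X.num - X.den) * (X.num - 81 * X.den) : ℤ) : ℚ) := by
    refine ⟨(X.den : ℚ) ^ 2 * Y, ?_⟩
    have hne : (X.den : ℚ) ≠ 0 := hnq.ne'
    have e : (X.den : ℚ) ^ 2 * Y * ((X.den : ℚ) ^ 2 * Y) = (X.den : ℚ) ^ 4 * Y ^ 2 := by ring
    rw [e, h]
    push_cast
    have hx : (X.num : ℚ) = X * (X.den : ℚ) := (Rat.mul_den_eq_num X).symm
    rw [hx]
    ring
  obtain ⟨k, hk⟩ := Rat.isSquare_intCast_iff.mp hsq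
  exact no_sol _ _ _ le_rfl ⟨hn, hmn, k, by rw [hk]; ring⟩

/-- Every rational point of `Y^2 = X (X - 1) (X - 81)` is a `2`-torsion point. -/
theorem E2 (X Y : ℚ) (h : Y ^ 2 = X * (X - 1) * (X - 81)) : Y = 0 := by
  by_contra hY
  have hpos : 0 < X * (X - 1) * (X - 81) := by rw [← h]; positivity
  rcases lt_or_ge 81 X with hX | hX
  · exact E2_aux X Y hX h
  · have hX0 : 0 < X := by
      by_contra h0
      have h0 := not_lt.mp h0
      have : X * (X - 1) * (X - 81) ≤ 0 := by
        have h1 : 0 ≤ X * (X - 1) := mul_nonneg_of_nonpos_of_nonpos h0 (by linarith)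
        exact mul_nonpos_of_nonneg_of_nonpos h1 (by linarith)
      linarith
    have hX1 : X < 1 := by
      by_contra h1
      have h1 := not_lt.mp h1
      have : X * (X - 1) * (X - 81) ≤ 0 := by
        have h2 : 0 ≤ X * (X - 1) := mul_nonneg hX0.le (by linarith)
        exact mul_nonpos_of_nonneg_of_nonpos h2 (by linarith)
      linarith
    apply E2_aux (81 / X) (81 * Y / X ^ 2)
    · rw [lt_div_iff₀ hX0]; linarith
    · have hXne : X ≠ 0 := hX0.ne'
      rw [div_pow, mul_pow, h]
      field_simp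
      ring

end Descent

/-- MODULE D: the rational points of `y^2 = x (x + 9) (x - 16)` (the curve `15a1`). -/
theorem rational_points (x y : ℚ) (h : y ^ 2 = x * (x + 9) * (x - 16)) :
    x = 0 ∨ x = -9 ∨ x = 16 ∨ x = 36 ∨ x = -4 := by
  by_cases h16 : x = 16
  · right; right; left; exact h16
  have hne : x - 16 ≠ 0 := sub_ne_zero.mpr h16
  have key := Descent.E2 (x * (x + 9) / (x - 16)) (y * (x - 36) * (x + 4) / (x - 16) ^ 2) (by
    rw [div_pow, mul_pow, mul_pow, h]
    field_simp
    ring)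
  have h0 : y * (x - 36) * (x + 4) = 0 := by
    have hne2 : (x - 16) ^ 2 ≠ 0 := pow_ne_zero 2 hne
    exact (div_eq_zero_iff.mp key).resolve_right hne2
  rcases mul_eq_zero.mp h0 with h1 | h1
  · rcases mul_eq_zero.mp h1 with h2 | h2
    · -- y = 0
      rw [h2] at h
      have h3 : x * (x + 9) * (x - 16) = 0 := by rw [← h]; ring
      rcases mul_eq_zero.mp h3 with h4 | h4
      · rcases mul_eq_zero.mp h4 with h5 | h5
        · left; exact h5
        · right; left; linarith
      · right; right; left; linarith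
    · right; right; right; left; linarith
  · right; right; right; right; linarith

end Fermat.Agent.S51
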