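import Mathlib

namespace Fermat.Agent.S51.A4

open Polynomial

section Short

variable {K : Type*} [Field K] [IsAlgClosed K] [CharZero K]

theorem exists_three_short (A B : K) (hD : 4 * A ^ 3 + 27 * B ^ 2 ≠ 0) :
    ∃ X0 : K, 3 * X0 ^ 4 + 6 * A * X0 ^ 2 + 12 * B * X0 - A ^ 2 = 0 ∧
      X0 ^ 3 + A * X0 + B ≠ 0 := by
  have h3 : (3 : K) ≠ 0 := by norm_num
  let p : K[X] := C 3 * X ^ 4 + C (6 * A) * X ^ 2 + C (12 * B) * X - C (A ^ 2)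
  have hdeg : p.natDegree = 4 := by
    simp only [p]
    compute_degree!
  have hp : p.degree ≠ 0 := by
    rw [degree_eq_natDegree (by intro h; rw [h, natDegree_zero] at hdeg; omega), hdeg]
    norm_num
  obtain ⟨X0, hX0⟩ := IsAlgClosed.exists_root p hp
  have h0 : 3 * X0 ^ 4 + 6 * A * X0 ^ 2 + 12 * B * X0 - A ^ 2 = 0 := by
    have := hX0
    simp only [p, IsRoot.def, eval_sub, eval_add, eval_mul, eval_C, eval_pow, eval_X] at this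
    exact this
  refine ⟨X0, h0, fun hg => hD ?_⟩
  linear_combination (-(3 * X0 ^ 2) - 4 * A) * h0 + (9 * X0 ^ 3 + 21 * A * X0 + 27 * B) * hg

theorem exists_five_short (A B : K) (hD : 4 * A ^ 3 + 27 * B ^ 2 ≠ 0) :
    ∃ X1 X2 : K, X1 ≠ X2 ∧ X1 ^ 3 + A * X1 + B ≠ 0 ∧ X2 ^ 3 + A * X2 + B ≠ 0 ∧
      X1 ^ 4 - 2 * A * X1 ^ 2 - 8 * B * X1 + A ^ 2 = 4 * X2 * (X1 ^ 3 + A * X1 + B) ∧
      X2 ^ 4 - 2 * A * X2 ^ 2 - 8 * B * X2 + A ^ 2 = 4 * X1 * (X2 ^ 3 + A * X2 + B) := by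
  have h5 : (5 : K) ≠ 0 := by norm_num
  let p : K[X] := C 5 * X ^ 12 + C (62 * A) * X ^ 10 + C (380 * B) * X ^ 9 - C (105 * A ^ 2) * X ^ 8
    + C (240 * A * B) * X ^ 7 - C (300 * A ^ 3 + 240 * B ^ 2) * X ^ 6 - C (696 * A ^ 2 * B) * X ^ 5
    - C (125 * A ^ 4 + 1920 * A * B ^ 2) * X ^ 4 - C (80 * A ^ 3 * B + 1600 * B ^ 3) * X ^ 3
    - C (50 * A ^ 5 + 240 * A ^ 2 * B ^ 2) * X ^ 2 - C (100 * A ^ 4 * B + 640 * A * B ^ 3) * X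
    + C (A ^ 6 - 32 * A ^ 3 * B ^ 2 - 256 * B ^ 4)
  have hdeg : p.natDegree = 12 := by
    simp only [p]
    compute_degree!
  have hp : p.degree ≠ 0 := by
    rw [degree_eq_natDegree (by intro h; rw [h, natDegree_zero] at hdeg; omega), hdeg]
    norm_num
  obtain ⟨X1, hX1⟩ := IsAlgClosed.exists_root p hp
  have h0 : 5 * X1 ^ 12 + 62 * A * X1 ^ 10 + 380 * B * X1 ^ 9 - 105 * A ^ 2 * X1 ^ 8
      + 240 * A * B * X1 ^ 7 - (300 * A ^ 3 + 240 * B ^ 2) * X1 ^ 6 - 696 * A ^ 2 * B * X1 ^ 5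
      - (125 * A ^ 4 + 1920 * A * B ^ 2) * X1 ^ 4 - (80 * A ^ 3 * B + 1600 * B ^ 3) * X1 ^ 3
      - (50 * A ^ 5 + 240 * A ^ 2 * B ^ 2) * X1 ^ 2 - (100 * A ^ 4 * B + 640 * A * B ^ 3) * X1
      + (A ^ 6 - 32 * A ^ 3 * B ^ 2 - 256 * B ^ 4) = 0 := by
    have := hX1
    simp only [p, IsRoot.def, eval_sub, eval_add, eval_mul, eval_C, eval_pow, eval_X] at this
    exact this
  -- abbreviations
  set g1 : K := X1 ^ 3 + A * X1 + B with hg1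
  set ps3 : K := 3 * X1 ^ 4 + 6 * A * X1 ^ 2 + 12 * B * X1 - A ^ 2 with hps3
  set P4 : K := X1 ^ 6 + 5 * A * X1 ^ 4 + 20 * B * X1 ^ 3 - 5 * A ^ 2 * X1 ^ 2 - 4 * A * B * X1
    - 8 * B ^ 2 - A ^ 3 with hP4
  set Ph1 : K := X1 ^ 4 - 2 * A * X1 ^ 2 - 8 * B * X1 + A ^ 2 with hPh1
  -- psi5 = 32 g^2 P4 - psi3^3
  have hpsi5 : 32 * g1 ^ 2 * P4 - ps3 ^ 3 = 0 := by
    rw [← h0]; simp only [hg1, hps3, hP4]; ring
  have hcert1 : (-(3 * X1 ^ 2) - 4 * A) * ps3 + (9 * X1 ^ 3 + 21 * A * X1 + 27 * B) * g1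
      = 4 * A ^ 3 + 27 * B ^ 2 := by
    simp only [hg1, hps3]; ring
  have hg1ne : g1 ≠ 0 := by
    intro hg
    have h3 : ps3 ^ 3 = 0 := by
      have := hpsi5
      rw [hg] at this
      linear_combination -this
    have h3' : ps3 = 0 := pow_eq_zero_iff (n := 3) (by norm_num) |>.mp h3
    apply hD
    rw [← hcert1, h3', hg]; ring
  have h4g : 4 * g1 ≠ 0 := mul_ne_zero (by norm_num) hg1ne
  have key : (Ph1 ^ 4 - 2 * A * Ph1 ^ 2 * (4 * g1) ^ 2 - 8 * B * Ph1 * (4 * g1) ^ 3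
      + A ^ 2 * (4 * g1) ^ 4)
      - 4 * X1 * (Ph1 ^ 3 + A * Ph1 * (4 * g1) ^ 2 + B * (4 * g1) ^ 3) * (4 * g1) = 0 := by
    have h1 : (Ph1 ^ 4 - 2 * A * Ph1 ^ 2 * (4 * g1) ^ 2 - 8 * B * Ph1 * (4 * g1) ^ 3
      + A ^ 2 * (4 * g1) ^ 4)
      - 4 * X1 * (Ph1 ^ 3 + A * Ph1 * (4 * g1) ^ 2 + B * (4 * g1) ^ 3) * (4 * g1)
      = -ps3 * (32 * g1 ^ 2 * P4 - ps3 ^ 3) := by
      simp only [hPh1, hg1, hps3, hP4]; ring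
    rw [h1, hpsi5, mul_zero]
  have hrel : (Ph1 / (4 * g1)) ^ 4 - 2 * A * (Ph1 / (4 * g1)) ^ 2 - 8 * B * (Ph1 / (4 * g1)) + A ^ 2
      = 4 * X1 * ((Ph1 / (4 * g1)) ^ 3 + A * (Ph1 / (4 * g1)) + B) := by
    rw [← sub_eq_zero]
    have h2 : (Ph1 / (4 * g1)) ^ 4 - 2 * A * (Ph1 / (4 * g1)) ^ 2 - 8 * B * (Ph1 / (4 * g1)) + A ^ 2
      - 4 * X1 * ((Ph1 / (4 * g1)) ^ 3 + A * (Ph1 / (4 * g1)) + B)
      = ((Ph1 ^ 4 - 2 * A * Ph1 ^ 2 * (4 * g1) ^ 2 - 8 * B * Ph1 * (4 * g1) ^ 3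
      + A ^ 2 * (4 * g1) ^ 4)
      - 4 * X1 * (Ph1 ^ 3 + A * Ph1 * (4 * g1) ^ 2 + B * (4 * g1) ^ 3) * (4 * g1)) / (4 * g1) ^ 4 := by
      field_simp
    rw [h2, key, zero_div]
  refine ⟨X1, Ph1 / (4 * g1), ?_, hg1ne, ?_, ?_, hrel⟩
  · -- X1 ≠ X2
    intro heq
    have hPh : Ph1 = 4 * X1 * g1 := by
      field_simp at heq
      linear_combination -heq
    have hps3z : ps3 = 0 := by
      simp only [hps3, hPh1, hg1] at hPh ⊢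
      linear_combination -hPh
    have hP4z : P4 = 0 := by
      have := hpsi5
      rw [hps3z] at this
      have h2 : 32 * g1 ^ 2 * P4 = 0 := by linear_combination this
      rcases mul_eq_zero.mp h2 with h | h
      · exfalso
        rcases mul_eq_zero.mp h with h | h
        · norm_num at h
        · exact hg1ne (pow_eq_zero_iff (n := 2) (by norm_num) |>.mp h)
      · exact h
    have hcert2 : (54 * X1 ^ 5 * B + 12 * X1 ^ 4 * A ^ 2 + 252 * X1 ^ 3 * A * B + 60 * X1 ^ 2 * A ^ 3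
        + 1107 * X1 ^ 2 * B ^ 2 - 114 * X1 * A ^ 2 * B - 56 * A ^ 4 - 423 * A * B ^ 2) * ps3
        + (-(162 * X1 ^ 3 * B) - 36 * X1 ^ 2 * A ^ 2 - 270 * X1 * A * B - 72 * A ^ 3 - 729 * B ^ 2) * P4
        = 8 * (4 * A ^ 3 + 27 * B ^ 2) ^ 2 := by
      simp only [hps3, hP4]; ring
    rw [hps3z, hP4z] at hcert2
    apply hD
    have : (4 * A ^ 3 + 27 * B ^ 2) ^ 2 = 0 := by linear_combination -(1/8 : K) * hcert2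
    exact pow_eq_zero_iff (n := 2) (by norm_num) |>.mp this
  · -- g(X2) ≠ 0
    intro hg2
    apply hD
    have hPhi2 : (Ph1 / (4 * g1)) ^ 4 - 2 * A * (Ph1 / (4 * g1)) ^ 2 - 8 * B * (Ph1 / (4 * g1)) + A ^ 2
        = 0 := by
      rw [hrel, hg2, mul_zero]
    linear_combination (3 * (Ph1 / (4 * g1)) ^ 2 + 4 * A) * hPhi2
      + (-(3 * (Ph1 / (4 * g1)) ^ 3) + 5 * A * (Ph1 / (4 * g1)) + 27 * B) * hg2
  · -- Phi(X1) = 4 X2 g(X1)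
    show Ph1 = 4 * (Ph1 / (4 * g1)) * g1
    field_simp

end Short

section General

variable {K : Type*} [Field K] [IsAlgClosed K] [CharZero K]

omit [IsAlgClosed K] in
theorem disc_short (b2 b4 b6 b8 : K) (hrel : 4 * b8 = b2 * b6 - b4 ^ 2)
    (hΔ : -b2 ^ 2 * b8 - 8 * b4 ^ 3 - 27 * b6 ^ 2 + 9 * b2 * b4 * b6 ≠ 0) :
    4 * (-(b2 ^ 2 - 24 * b4) / 48) ^ 3 + 27 * (-(-b2 ^ 3 + 36 * b2 * b4 - 216 * b6) / 864) ^ 2 ≠ 0 := by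
  intro h
  apply hΔ
  linear_combination (-16) * h - (b2 ^ 2 / 4) * hrel

theorem exists_three (b2 b4 b6 b8 : K) (hrel : 4 * b8 = b2 * b6 - b4 ^ 2)
    (hΔ : -b2 ^ 2 * b8 - 8 * b4 ^ 3 - 27 * b6 ^ 2 + 9 * b2 * b4 * b6 ≠ 0) :
    ∃ x0 : K, 3 * x0 ^ 4 + b2 * x0 ^ 3 + 3 * b4 * x0 ^ 2 + 3 * b6 * x0 + b8 = 0 ∧
      4 * x0 ^ 3 + b2 * x0 ^ 2 + 2 * b4 * x0 + b6 ≠ 0 := by
  obtain ⟨X0, h0, hg⟩ := exists_three_short _ _ (disc_short b2 b4 b6 b8 hrel hΔ)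
  refine ⟨X0 - b2 / 12, ?_, fun hf => hg ?_⟩
  · linear_combination h0 + (1 / 4 : K) * hrel
  · linear_combination (1 / 4 : K) * hf

theorem exists_five (b2 b4 b6 b8 : K) (hrel : 4 * b8 = b2 * b6 - b4 ^ 2)
    (hΔ : -b2 ^ 2 * b8 - 8 * b4 ^ 3 - 27 * b6 ^ 2 + 9 * b2 * b4 * b6 ≠ 0) :
    ∃ x1 x2 : K, x1 ≠ x2 ∧ 4 * x1 ^ 3 + b2 * x1 ^ 2 + 2 * b4 * x1 + b6 ≠ 0 ∧
      4 * x2 ^ 3 + b2 * x2 ^ 2 + 2 * b4 * x2 + b6 ≠ 0 ∧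
      x1 ^ 4 - b4 * x1 ^ 2 - 2 * b6 * x1 - b8 = x2 * (4 * x1 ^ 3 + b2 * x1 ^ 2 + 2 * b4 * x1 + b6) ∧
      x2 ^ 4 - b4 * x2 ^ 2 - 2 * b6 * x2 - b8 = x1 * (4 * x2 ^ 3 + b2 * x2 ^ 2 + 2 * b4 * x2 + b6) := by
  obtain ⟨X1, X2, hne, hg1, hg2, h12, h21⟩ :=
    exists_five_short _ _ (disc_short b2 b4 b6 b8 hrel hΔ)
  refine ⟨X1 - b2 / 12, X2 - b2 / 12, fun h => hne (sub_left_injective h), fun hf => hg1 ?_,
    fun hf => hg2 ?_, ?_, ?_⟩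
  · linear_combination (1 / 4 : K) * hf
  · linear_combination (1 / 4 : K) * hf
  · linear_combination h12 - (1 / 4 : K) * hrel
  · linear_combination h21 - (1 / 4 : K) * hrel

end General

end Fermat.Agent.S51.A4
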