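import Fermat.Agent.S51.Torsion
import Fermat.Agent.S51.TorsionRoots

set_option autoImplicit false

namespace Fermat.Agent.S51.Five

open WeierstrassCurve WeierstrassCurve.Affine
open Fermat.Agent.S51

variable {F : Type*} [Field F] [DecidableEq F]

omit [DecidableEq F] in
lemma exists_y [IsAlgClosed F] (h2 : (2 : F) ≠ 0) (W : WeierstrassCurve.Affine F) (x : F) :
    ∃ y : F, W.Equation x y := by
  obtain ⟨s, hs⟩ := IsAlgClosed.exists_eq_mul_self (f2 W x)
  refine ⟨(s - W.a₁ * x - W.a₃) / 2, ?_⟩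
  rw [Affine.equation_iff]
  simp only [f2, WeierstrassCurve.b₂, WeierstrassCurve.b₄, WeierstrassCurve.b₆] at hs
  field_simp
  linear_combination (-1) * hs

/-- From a pair `(x1, x2)` satisfying the two duplication relations, build a point of order 5. -/
theorem five_torsion_of_roots (W : WeierstrassCurve.Affine F) {x1 x2 y1 : F}
    (h : W.Nonsingular x1 y1) (hne : x1 ≠ x2) (hf1 : f2 W x1 ≠ 0) (hf2 : f2 W x2 ≠ 0)
    (h12 : phi2 W x1 = x2 * f2 W x1) (h21 : phi2 W x2 = x1 * f2 W x2) :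
    (5 : ℕ) • (Point.some x1 y1 h) = 0 := by
  set P : W.Point := Point.some x1 y1 h with hP
  have hP0 : P ≠ 0 := Point.some_ne_zero h
  have h2P : 2 • P ≠ 0 := fun h0 => hf1 ((two_nsmul_eq_zero_iff h).mp h0)
  obtain ⟨-, hx2⟩ := xc_two_nsmul hP0 h2P
  have hxc2 : xc (2 • P) = x2 := by
    have : xc (2 • P) * f2 W x1 = x2 * f2 W x1 := by rw [← h12]; exact hx2
    exact mul_right_cancel₀ hf1 this
  -- 4P
  have h4P : 2 • (2 • P) ≠ 0 := by
    intro h0
    -- 2P is a nonzero point with x-coordinate x2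
    cases hQ : (2 • P) with
    | zero => exact h2P hQ
    | some x y hxy =>
      rw [hQ] at h0 hxc2
      simp only [xc_some] at hxc2
      subst hxc2
      exact hf2 ((two_nsmul_eq_zero_iff hxy).mp h0)
  obtain ⟨-, hx4⟩ := xc_two_nsmul h2P h4P
  rw [hxc2] at hx4
  have hxc4 : xc (2 • (2 • P)) = x1 := by
    have : xc (2 • (2 • P)) * f2 W x2 = x1 * f2 W x2 := by rw [← h21]; exact hx4
    exact mul_right_cancel₀ hf2 this
  have hxcP : xc P = x1 := rfl
  rcases eq_or_eq_neg_of_xc_eq h4P hP0 (hxc4.trans hxcP.symm) with h4 | h4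
  · -- 4P = P, so 3P = 0, so 2P = -P and x2 = x1
    exfalso
    apply hne
    have h3 : 2 • P = -P := by
      have : 2 • (2 • P) = 2 • P + P + P := by
        rw [two_nsmul, two_nsmul]; abel
      rw [this] at h4
      have h5 : 2 • P + P = 0 := by
        have := congrArg (fun Q => Q - P) h4
        simpa using this
      exact eq_neg_of_add_eq_zero_left h5
    have : xc (2 • P) = xc P := by rw [h3, xc_neg]
    rw [hxc2] at this
    exact this.symm
  · -- 4P = -P
    have : (5 : ℕ) • P = 2 • (2 • P) + P := by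
      rw [two_nsmul, two_nsmul]
      rw [show (5 : ℕ) = 1 + 1 + 1 + 1 + 1 by norm_num]
      simp only [add_smul, one_smul]
      abel
    rw [this, h4, neg_add_cancel]

/-- Existence of a nonzero 5-torsion point over an algebraically closed field of char 0. -/
theorem exists_five_torsion [IsAlgClosed F] [CharZero F] (W : WeierstrassCurve.Affine F)
    (hΔ : W.Δ ≠ 0) : ∃ P : W.Point, P ≠ 0 ∧ 5 • P = 0 := by
  have hΔ' : -W.b₂ ^ 2 * W.b₈ - 8 * W.b₄ ^ 3 - 27 * W.b₆ ^ 2 + 9 * W.b₂ * W.b₄ * W.b₆ ≠ 0 := hΔ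
  obtain ⟨x1, x2, hne, hf1, hf2, h12, h21⟩ :=
    Fermat.Agent.S51.A4.exists_five W.b₂ W.b₄ W.b₆ W.b₈ W.b_relation hΔ'
  obtain ⟨y1, hy1⟩ := exists_y (by norm_num) W x1
  have hns : W.Nonsingular x1 y1 := (Affine.equation_iff_nonsingular_of_Δ_ne_zero hΔ).mp hy1
  exact ⟨Point.some x1 y1 hns, Point.some_ne_zero hns,
    five_torsion_of_roots W hns hne hf1 hf2 h12 h21⟩

end Fermat.Agent.S51.Five
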