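import Mathlib

set_option autoImplicit false

namespace Fermat.Agent.S51

theorem isAlgClosure_algebraicClosure_rat : IsAlgClosure ℚ (AlgebraicClosure ℚ) :=
  letI : Algebra ℚ (AlgebraicClosure ℚ) := AlgebraicClosure.instAlgebra ℚ
  (inferInstance : IsAlgClosure ℚ (AlgebraicClosure ℚ))

theorem isGalois_algebraicClosure_rat : IsGalois ℚ (AlgebraicClosure ℚ) :=
  haveI := isAlgClosure_algebraicClosure_rat
  inferInstance

/-- An element of `AlgebraicClosure ℚ` fixed by every automorphism is rational. -/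
theorem fixed_rat (x : AlgebraicClosure ℚ)
    (h : ∀ σ : AlgebraicClosure ℚ ≃ₐ[ℚ] AlgebraicClosure ℚ, σ x = x) :
    ∃ q : ℚ, algebraMap ℚ (AlgebraicClosure ℚ) q = x := by
  haveI := isGalois_algebraicClosure_rat
  exact (InfiniteGalois.mem_range_algebraMap_iff_fixed x).mpr h

end Fermat.Agent.S51
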