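import Mathlib

set_option autoImplicit false

namespace Fermat.Agent.S51.A

open Polynomial

/-- Root counting: if nonzero vectors of a `ZMod p`-module have "x-coordinates" that are roots of
a fixed polynomial of small degree, with `xc v = xc w` only for `w = ±v`, then no three vectors are
linearly independent. -/
theorem not_linearIndependent_three {p : ℕ} [Fact p.Prime] {V : Type} [AddCommGroup V]
    [Module (ZMod p) V] {K : Type} [Field K] (xc : V → K) (Ψ : K[X]) (hΨ : Ψ ≠ 0)
    (hdeg : 2 * Ψ.natDegree + 1 < p ^ 3)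
    (hroot : ∀ v : V, v ≠ 0 → Ψ.IsRoot (xc v))
    (hinj : ∀ v w : V, v ≠ 0 → w ≠ 0 → xc v = xc w → v = w ∨ v = -w)
    (a b c : V) : ¬ LinearIndependent (ZMod p) ![a, b, c] := by
  classical
  intro hli
  -- the injective linear map from (Fin 3 → ZMod p)
  let L : (Fin 3 → ZMod p) →ₗ[ZMod p] V := Fintype.linearCombination (ZMod p) ![a, b, c]
  have hL : Function.Injective L := by
    have := (Fintype.linearIndependent_iff' (R := ZMod p) (v := ![a, b, c])).mp hli
    exact LinearMap.ker_eq_bot.mp this
  let s : Finset (Fin 3 → ZMod p) := Finset.univ.filter (fun v => v ≠ 0)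
  have hs : s.card = p ^ 3 - 1 := by
    have h1 : s = Finset.univ.erase 0 := by
      ext v; simp [s]
    rw [h1, Finset.card_erase_of_mem (Finset.mem_univ _), Finset.card_univ]
    simp [ZMod.card]
  let f : (Fin 3 → ZMod p) → K := fun v => xc (L v)
  have hfib : ∀ x ∈ s.image f, (s.filter (fun v => f v = x)).card ≤ 2 := by
    intro x hx
    obtain ⟨v0, hv0, rfl⟩ := Finset.mem_image.mp hx
    have hv0ne : v0 ≠ 0 := (Finset.mem_filter.mp hv0).2
    have hsub : s.filter (fun v => f v = f v0) ⊆ {v0, -v0} := by
      intro w hw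
      obtain ⟨hws, hw2⟩ := Finset.mem_filter.mp hw
      have hwne : w ≠ 0 := (Finset.mem_filter.mp hws).2
      have hLw : L w ≠ 0 := fun h => hwne (hL (by rw [h, map_zero]))
      have hLv : L v0 ≠ 0 := fun h => hv0ne (hL (by rw [h, map_zero]))
      rcases hinj (L w) (L v0) hLw hLv hw2 with h | h
      · rw [hL h]; simp
      · have : w = -v0 := hL (by rw [h, map_neg])
        rw [this]; simp
    calc (s.filter (fun v => f v = f v0)).card ≤ ({v0, -v0} : Finset _).card :=
          Finset.card_le_card hsub
      _ ≤ 2 := Finset.card_le_two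
  have h1 := Finset.card_le_mul_card_image s 2 hfib
  have h2 : (s.image f).card ≤ Ψ.natDegree := by
    apply Polynomial.card_le_degree_of_subset_roots
    intro x hx
    rw [Finset.mem_val] at hx
    obtain ⟨v, hv, rfl⟩ := Finset.mem_image.mp hx
    have hvne : v ≠ 0 := (Finset.mem_filter.mp hv).2
    have hLv : L v ≠ 0 := fun h => hvne (hL (by rw [h, map_zero]))
    exact (Polynomial.mem_roots hΨ).mpr (hroot _ hLv)
  rw [hs] at h1
  have : p ^ 3 - 1 ≤ 2 * Ψ.natDegree := h1.trans (Nat.mul_le_mul_left 2 h2)
  omega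

/-- In a module with no three independent vectors, a proper submodule containing a nonzero `P`
is contained in the line through `P`. -/
theorem exists_smul_eq_of_proper {p : ℕ} [Fact p.Prime] {V : Type} [AddCommGroup V]
    [Module (ZMod p) V]
    (h3 : ∀ a b c : V, ¬ LinearIndependent (ZMod p) ![a, b, c])
    (N : Submodule (ZMod p) V) (hN : N ≠ ⊤) {P Q : V} (hP : P ∈ N) (hP0 : P ≠ 0) (hQ : Q ∈ N) :
    ∃ c : ZMod p, Q = c • P := by
  by_contra hcon
  obtain ⟨R, hR⟩ : ∃ R : V, R ∉ N := by
    by_contra h
    push Not at h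
    exact hN (Submodule.eq_top_iff'.mpr h)
  apply h3 R Q P
  have hQP : LinearIndependent (ZMod p) ![Q, P] := by
    rw [LinearIndependent.pair_symm_iff, LinearIndependent.pair_iff' hP0]
    intro c hc
    exact hcon ⟨c, hc.symm⟩
  have hR' : R ∉ Submodule.span (ZMod p) (Set.range ![Q, P]) := by
    intro hmem
    apply hR
    have hle : Submodule.span (ZMod p) (Set.range ![Q, P]) ≤ N := by
      rw [Submodule.span_le]
      rintro _ ⟨i, rfl⟩
      fin_cases i
      · exact hQ
      · exact hP
    exact hle hmem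
  have := (linearIndependent_finCons (x := R) (v := ![Q, P])).mpr ⟨hQP, hR'⟩
  convert this using 1
  ext i
  fin_cases i <;> rfl

end Fermat.Agent.S51.A
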