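import Fermat.Agent.S51.FiveRel

set_option autoImplicit false
set_option linter.unusedSectionVars false

namespace Fermat.Agent.S51

open WeierstrassCurve WeierstrassCurve.Affine Polynomial

variable {F : Type*} [Field F] [DecidableEq F] (W : WeierstrassCurve.Affine F)

noncomputable def fP : F[X] := 4 * X ^ 3 + C W.b₂ * X ^ 2 + 2 * C W.b₄ * X + C W.b₆

noncomputable def phiP : F[X] := X ^ 4 - C W.b₄ * X ^ 2 - 2 * C W.b₆ * X - C W.b₈

noncomputable def F16 : F[X] :=
  (phiP W ^ 4 - C W.b₄ * phiP W ^ 2 * fP W ^ 2 - 2 * C W.b₆ * phiP W * fP W ^ 3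
      - C W.b₈ * fP W ^ 4)
    - X * fP W * (4 * phiP W ^ 3 + C W.b₂ * phiP W ^ 2 * fP W + 2 * C W.b₄ * phiP W * fP W ^ 2
      + C W.b₆ * fP W ^ 3)

lemma eval_fP (x : F) : (fP W).eval x = f2 W x := by
  simp [fP, f2]

lemma eval_phiP (x : F) : (phiP W).eval x = phi2 W x := by
  simp [phiP, phi2]

lemma natDegree_F16 [CharZero F] : (F16 W).natDegree = 16 := by
  unfold F16 phiP fP
  compute_degree!

end Fermat.Agent.S51
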