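import Fermat.Agent.S51.GalFive
import Fermat.Agent.S51.Poly16
import Fermat.Agent.S51.LineLemma
import Fermat.Agent.S51.GalFix

set_option autoImplicit false
set_option linter.unusedSectionVars false

namespace Fermat.Agent.S51

open WeierstrassCurve WeierstrassCurve.Affine WeierstrassCurve.Affine.Point Polynomial

section general

variable {F : Type*} [Field F] [DecidableEq F] {W : WeierstrassCurve.Affine F}

lemma F16_isRoot {P : W.Point} (hP : P ≠ 0) (h5 : (5 : ℕ) • P = 0) : (F16 W).IsRoot (xc P) := by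
  obtain ⟨-, -, -, hd1, hd2⟩ := five_torsion_rel hP h5
  rw [Polynomial.IsRoot]
  unfold F16
  simp only [eval_sub, eval_mul, eval_pow, eval_add, eval_C, eval_X, eval_ofNat, eval_fP,
    eval_phiP]
  rw [hd1]
  generalize f2 W (xc P) = b
  unfold phi2 f2 at hd2
  linear_combination b ^ 4 * hd2

end general

variable (E : WeierstrassCurve ℚ)

theorem five_nsmul_of_mem_torsion (v : Submodule.torsionBy ℤ (E⁄Kbar).Point (5 : ℕ)) :
    (5 : ℕ) • (v : (E⁄Kbar).Point) = 0 := by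
  have h := v.2
  rw [Submodule.mem_torsionBy_iff] at h
  rw [← natCast_zsmul]
  exact h

/-- The `p = 5` half: a reducible mod-5 representation yields a rational pair `(s1, s2)`. -/
theorem exists_rational_pair_aux
    (hnt : ∃ P : (E⁄Kbar).Point, P ≠ 0 ∧ (5 : ℕ) • P = 0)
    (hred : ¬ GaloisRepIsIrreducible (K := Kbar) ℚ E 5) :
    ∃ s1 s2 : ℚ, ∃ x1 x2 : Kbar, x1 + x2 = algebraMap ℚ Kbar s1 ∧
      x1 * x2 = algebraMap ℚ Kbar s2 ∧ x1 ≠ x2 ∧
      f2 (E⁄Kbar) x1 ≠ 0 ∧ f2 (E⁄Kbar) x2 ≠ 0 ∧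
      phi2 (E⁄Kbar) x1 = x2 * f2 (E⁄Kbar) x1 ∧ phi2 (E⁄Kbar) x2 = x1 * f2 (E⁄Kbar) x2 := by
  have : Fact (Nat.Prime 5) := ⟨by norm_num⟩
  have hntr : Nontrivial (Submodule.torsionBy ℤ (E⁄Kbar).Point (5 : ℕ)) := by
    obtain ⟨A, hA, hA5⟩ := hnt
    have hmem : A ∈ Submodule.torsionBy ℤ (E⁄Kbar).Point (5 : ℕ) := by
      rw [Submodule.mem_torsionBy_iff, natCast_zsmul]
      exact hA5
    refine ⟨⟨⟨A, hmem⟩, 0, ?_⟩⟩
    intro h
    exact hA (congrArg Subtype.val h)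
  have hex : ∃ N : Submodule (ZMod 5) (Submodule.torsionBy ℤ (E⁄Kbar).Point (5 : ℕ)),
      IsGaloisStable ℚ N ∧ N ≠ ⊥ ∧ N ≠ ⊤ := by
    by_contra hcon
    apply hred
    refine ⟨hntr, fun N hN => ?_⟩
    by_contra h
    push Not at h
    exact hcon ⟨N, hN, h.1, h.2⟩
  obtain ⟨N, hstable, hbot, htop⟩ := hex
  obtain ⟨P, hPN, hP0⟩ := Submodule.exists_mem_ne_zero_of_ne_bot hbot
  have hF16 : F16 (E⁄Kbar) ≠ 0 := by
    intro h
    have := natDegree_F16 (E⁄Kbar)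
    rw [h] at this
    simp at this
  have hno3 := A.not_linearIndependent_three (p := 5)
    (V := Submodule.torsionBy ℤ (E⁄Kbar).Point (5 : ℕ))
    (fun v => xc (v : (E⁄Kbar).Point)) (F16 (E⁄Kbar)) hF16
    (by rw [natDegree_F16]; norm_num)
    (by
      intro v hv
      have hv' : (v : (E⁄Kbar).Point) ≠ 0 := fun h => hv (Subtype.ext h)
      exact F16_isRoot hv' (five_nsmul_of_mem_torsion E v))
    (by
      intro v w hv hw hvw
      have hv' : (v : (E⁄Kbar).Point) ≠ 0 := fun h => hv (Subtype.ext h)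
      have hw' : (w : (E⁄Kbar).Point) ≠ 0 := fun h => hw (Subtype.ext h)
      rcases eq_or_eq_neg_of_xc_eq hv' hw' hvw with h | h
      · exact Or.inl (Subtype.ext h)
      · exact Or.inr (Subtype.ext h))
  have hP0' : (P : (E⁄Kbar).Point) ≠ 0 := fun h => hP0 (Subtype.ext h)
  have hP5 := five_nsmul_of_mem_torsion E P
  have hst : ∀ σ : Kbar ≃ₐ[ℚ] Kbar, ∃ k : ℕ, σ • (P : (E⁄Kbar).Point) = k • (P : (E⁄Kbar).Point) := by
    intro σ
    obtain ⟨c, hc⟩ := A.exists_smul_eq_of_proper hno3 N htop hPN hP0 (hstable σ P hPN)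
    refine ⟨c.val, ?_⟩
    have hσP : ((σ • P : Submodule.torsionBy ℤ (E⁄Kbar).Point (5 : ℕ)) : (E⁄Kbar).Point)
        = σ • (P : (E⁄Kbar).Point) := rfl
    rw [← hσP, hc]
    conv_lhs => rw [← ZMod.natCast_zmod_val c]
    rw [Nat.cast_smul_eq_nsmul]
    simp
  obtain ⟨hne, hf1, hf2, hd1, hd2⟩ := five_torsion_rel hP0' hP5
  obtain ⟨s1, hs1⟩ := fixed_rat _ (fun σ => (five_sym_fixed E hP0' hP5 hst σ).1)
  obtain ⟨s2, hs2⟩ := fixed_rat _ (fun σ => (five_sym_fixed E hP0' hP5 hst σ).2)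
  exact ⟨s1, s2, _, _, hs1.symm, hs2.symm, hne, hf1, hf2, hd1, hd2⟩

end Fermat.Agent.S51
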