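import Mathlib
import Fermat.Prelude.Def_FLTPrelim_Modularity

set_option autoImplicit false

namespace Fermat.Agent.S51

/-- core divisibility argument at the prime `5`. -/
theorem semistable_five_aux (c d A B : ℤ) (hA : ¬ (5 : ℤ) ∣ A) (hB5 : (5 : ℤ) ∣ B)
    (hB125 : ∀ e : ℤ, (125 : ℤ) ∣ B * e → (5 : ℤ) ∣ e)
    (hss : (5 : ℤ) ∣ d → ¬ (5 : ℤ) ∣ c) (h : A * c ^ 3 = B * d) : False := by
  have h5 : Prime (5 : ℤ) := by norm_num
  have hc : (5 : ℤ) ∣ c := by
    have h1 : (5 : ℤ) ∣ A * c ^ 3 := by rw [h]; exact Dvd.dvd.mul_right hB5 d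
    rcases h5.dvd_or_dvd h1 with h2 | h2
    · exact absurd h2 hA
    · exact h5.dvd_of_dvd_pow h2
  have hc3 : (125 : ℤ) ∣ c ^ 3 := by
    obtain ⟨t, rfl⟩ := hc
    exact ⟨t ^ 3, by ring⟩
  have hd : (5 : ℤ) ∣ d := hB125 d (by rw [← h]; exact Dvd.dvd.mul_left hc3 A)
  exact hss hd hc

theorem not_semistable (W : WeierstrassCurve ℤ) (hW : W.IsSemistableModel) (_hΔ : W.Δ ≠ 0) (h : ℚ)
    (hh : h = -729/2 ∨ h = -2 ∨ h = -32 ∨ h = -729/32)
    (hj : (W.c₄:ℚ)^3*h = (W.Δ:ℚ)*(h+27)*(h+3)^3) : False := by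
  have hss : (5 : ℤ) ∣ W.Δ → ¬ (5 : ℤ) ∣ W.c₄ := by
    have := hW 5 (by norm_num)
    simpa using this
  have h5 : Prime (5 : ℤ) := by norm_num
  rcases hh with rfl | rfl | rfl | rfl
  · have e : (8 : ℤ) * W.c₄ ^ 3 = (-349938025 : ℤ) * W.Δ := by
      have : (8 : ℚ) * (W.c₄ : ℚ) ^ 3 = (-349938025 : ℚ) * (W.Δ : ℚ) := by
        linear_combination (-16 / 729 : ℚ) * hj
      exact_mod_cast this
    refine semistable_five_aux W.c₄ W.Δ 8 (-349938025) (by norm_num) (by norm_num) ?_ hss e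
    intro e he
    have h1 : (125 : ℤ) ∣ 25 * (-13997521 * e) := by
      have : (-349938025 : ℤ) * e = 25 * (-13997521 * e) := by ring
      rwa [this] at he
    have h2 : (5 : ℤ) ∣ -13997521 * e := by
      have : (125 : ℤ) = 25 * 5 := by norm_num
      rw [this] at h1
      exact (mul_dvd_mul_iff_left (by norm_num)).mp h1
    rcases h5.dvd_or_dvd h2 with h3 | h3
    · norm_num at h3
    · exact h3
  · have e : (2 : ℤ) * W.c₄ ^ 3 = (-25 : ℤ) * W.Δ := by
      have : (2 : ℚ) * (W.c₄ : ℚ) ^ 3 = (-25 : ℚ) * (W.Δ : ℚ) := by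
        linear_combination (-1 : ℚ) * hj
      exact_mod_cast this
    refine semistable_five_aux W.c₄ W.Δ 2 (-25) (by norm_num) (by norm_num) ?_ hss e
    intro e he
    have h1 : (125 : ℤ) ∣ 25 * (-1 * e) := by
      have : (-25 : ℤ) * e = 25 * (-1 * e) := by ring
      rwa [this] at he
    have h2 : (5 : ℤ) ∣ -1 * e := by
      have : (125 : ℤ) = 25 * 5 := by norm_num
      rw [this] at h1
      exact (mul_dvd_mul_iff_left (by norm_num)).mp h1
    simpa using h2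
  · have e : (32 : ℤ) * W.c₄ ^ 3 = (-121945 : ℤ) * W.Δ := by
      have : (32 : ℚ) * (W.c₄ : ℚ) ^ 3 = (-121945 : ℚ) * (W.Δ : ℚ) := by
        linear_combination (-1 : ℚ) * hj
      exact_mod_cast this
    refine semistable_five_aux W.c₄ W.Δ 32 (-121945) (by norm_num) (by norm_num) ?_ hss e
    intro e he
    have h1 : (5 * 25 : ℤ) ∣ 5 * (-24389 * e) := by
      have : (-121945 : ℤ) * e = 5 * (-24389 * e) := by ring
      rw [this] at he
      simpa using he
    have h2 : (25 : ℤ) ∣ -24389 * e := (mul_dvd_mul_iff_left (by norm_num)).mp h1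
    have h3 : (5 : ℤ) ∣ -24389 * e := Dvd.dvd.trans (by norm_num) h2
    rcases h5.dvd_or_dvd h3 with h4 | h4
    · norm_num at h4
    · exact h4
  · have e : (32768 : ℤ) * W.c₄ ^ 3 = (46969655 : ℤ) * W.Δ := by
      have : (32768 : ℚ) * (W.c₄ : ℚ) ^ 3 = (46969655 : ℚ) * (W.Δ : ℚ) := by
        linear_combination (-1048576 / 729 : ℚ) * hj
      exact_mod_cast this
    refine semistable_five_aux W.c₄ W.Δ 32768 46969655 (by norm_num) (by norm_num) ?_ hss e
    intro e he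
    have h1 : (5 * 25 : ℤ) ∣ 5 * (9393931 * e) := by
      have : (46969655 : ℤ) * e = 5 * (9393931 * e) := by ring
      rw [this] at he
      simpa using he
    have h2 : (25 : ℤ) ∣ 9393931 * e := (mul_dvd_mul_iff_left (by norm_num)).mp h1
    have h3 : (5 : ℤ) ∣ 9393931 * e := Dvd.dvd.trans (by norm_num) h2
    rcases h5.dvd_or_dvd h3 with h4 | h4
    · norm_num at h4
    · exact h4

end Fermat.Agent.S51
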