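import Fermat.Agent.S51.Descent3

set_option autoImplicit false

namespace Fermat.Agent.S51

open WeierstrassCurve WeierstrassCurve.Affine WeierstrassCurve.Affine.Point

/-- The p = 3 half of module A: if the mod-3 representation is reducible then the 3-division
polynomial has a rational root. -/
theorem exists_rational_root_psi3 (E : WeierstrassCurve ℚ) (hΔ : E.Δ ≠ 0)
    (hred : ¬ GaloisRepIsIrreducible (K := AlgebraicClosure ℚ) ℚ E 3) :
    ∃ x0 : ℚ, 3 * x0 ^ 4 + E.b₂ * x0 ^ 3 + 3 * E.b₄ * x0 ^ 2 + 3 * E.b₆ * x0 + E.b₈ = 0 :=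
  A.exists_rational_root_psi3 E hΔ hred

end Fermat.Agent.S51
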