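import Mathlib

set_option autoImplicit false

namespace Fermat.Agent.S51

namespace UnitsB2

variable {K : Type*} [Field K]

/-- Tate parametrisation of the translated `b`-invariants by `lam = B6 / d^2`, `b = d^3 / B6`. -/
theorem tate_param {B2 B4 B6 B8 d : K} (hd : d ≠ 0) (h6 : B6 ≠ 0)
    (hrel : 4 * B8 = B2 * B6 - B4 ^ 2) (h8 : -B8 = d * B6)
    (hd4 : d ^ 4 - B4 * d ^ 2 - 2 * B6 * d - B8 = 0) :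
    B2 = (B6 / d ^ 2) * ((d ^ 3 / B6) ^ 2 - 6 * (d ^ 3 / B6) + 1) ∧
    B4 = (B6 / d ^ 2) ^ 2 * ((d ^ 3 / B6) ^ 2 - d ^ 3 / B6) ∧
    B6 = (B6 / d ^ 2) ^ 3 * (d ^ 3 / B6) ^ 2 ∧
    B8 = -(B6 / d ^ 2) ^ 4 * (d ^ 3 / B6) ^ 3 ∧
    d = (B6 / d ^ 2) * (d ^ 3 / B6) := by
  have hB8 : B8 = -(d * B6) := by linear_combination -h8
  have hB4 : B4 = (d ^ 3 - B6) / d := by
    rw [eq_div_iff hd]
    have h0 : d * (d ^ 3 - B4 * d - B6) = 0 := by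
      rw [hB8] at hd4
      linear_combination hd4
    rcases mul_eq_zero.mp h0 with h | h
    · exact absurd h hd
    · linear_combination -h
  have hB2 : B2 = (4 * B8 + B4 ^ 2) / B6 := by
    rw [eq_div_iff h6]
    linear_combination -hrel
  refine ⟨?_, ?_, ?_, ?_, ?_⟩
  · rw [hB2, hB4, hB8]
    field_simp
    ring
  · rw [hB4]
    field_simp
  · field_simp
  · rw [hB8]
    field_simp
  · field_simp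

/-- The key polynomial identity: the numerator of the modular relation is a multiple of the
`3`-division polynomial in Tate coordinates. -/
theorem key_poly (b z : K)
    (hΨ : 3 * z ^ 4 + (b ^ 2 - 6 * b + 1) * z ^ 3 + 3 * (b ^ 2 - b) * z ^ 2 + 3 * b ^ 2 * z
      - b ^ 3 = 0) :
    9 * z * (z - b) * (4 * z ^ 3 + (b ^ 2 - 6 * b + 1) * z ^ 2 + 2 * (b ^ 2 - b) * z + b ^ 2) ^ 4
      + b ^ 2 * (4 * z ^ 3 + (b ^ 2 - 6 * b + 1) * z ^ 2 + 2 * (b ^ 2 - b) * z + b ^ 2) ^ 4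
      + 5 * b * (b ^ 2 - 11 * b - 1) * z ^ 3 * (z - b) ^ 3 *
          (4 * z ^ 3 + (b ^ 2 - 6 * b + 1) * z ^ 2 + 2 * (b ^ 2 - b) * z + b ^ 2) ^ 2
      + b ^ 2 * (b ^ 2 - 11 * b - 1) ^ 2 * z ^ 5 * (z - b) ^ 5
      - (b ^ 2 - 11 * b - 1) ^ 2 * z ^ 6 * (z - b) ^ 6 = 0 := by
  linear_combination
    (b^8*z^5 - 9*b^7*z^6 - 48*b^7*z^5 - 50*b^7*z^4 - 51*b^7*z^3 - 28*b^7*z^2 - 8*b^7*z - b^7 +
      9*b^6*z^7 + 205*b^6*z^6 + 528*b^6*z^5 + 524*b^6*z^4 + 352*b^6*z^3 + 117*b^6*z^2 + 14*b^6*z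
      - 274*b^5*z^7 - 1768*b^5*z^6 - 2405*b^5*z^5 - 1802*b^5*z^4 - 582*b^5*z^3 - 64*b^5*z^2 +
      117*b^4*z^8 + 2664*b^4*z^7 + 6117*b^4*z^6 + 4760*b^4*z^5 + 1435*b^4*z^4 + 145*b^4*z^3 -
      1886*b^3*z^8 - 9164*b^3*z^7 - 7080*b^3*z^6 - 1980*b^3*z^5 - 185*b^3*z^4 + 512*b^2*z^9 +
      8051*b^2*z^8 + 6008*b^2*z^7 + 1563*b^2*z^6 + 136*b^2*z^5 - 3840*b*z^9 - 2722*b*z^8 -
      662*b*z^7 - 54*b*z^6 + 768*z^10 + 512*z^9 + 117*z^8 + 9*z^7) * hΨ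

/-- The abstract rational-function form of the modular relation. -/
theorem key_frac {b z F D : K} (hb : b ≠ 0) (hF : F ≠ 0) :
    9 * (z * (z - b) / b ^ 2) + 1 + 5 * (b ^ 5 * D / F ^ 2) * (z * (z - b) / b ^ 2) ^ 3
      + (b ^ 5 * D / F ^ 2) ^ 2 * (z * (z - b) / b ^ 2) ^ 5
      - (b ^ 5 * D / F ^ 2) ^ 2 * (z * (z - b) / b ^ 2) ^ 6 =
      (9 * z * (z - b) * F ^ 4 + b ^ 2 * F ^ 4 + 5 * b * D * z ^ 3 * (z - b) ^ 3 * F ^ 2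
        + b ^ 2 * D ^ 2 * z ^ 5 * (z - b) ^ 5 - D ^ 2 * z ^ 6 * (z - b) ^ 6) / (b ^ 2 * F ^ 4) := by
  field_simp

/-- Core computation in Tate coordinates. -/
theorem core_tate {B2 B4 B6 B8 lam b X0 Δ Fx : K} (hlam : lam ≠ 0) (hb : b ≠ 0)
    (e2 : B2 = lam * (b ^ 2 - 6 * b + 1)) (e4 : B4 = lam ^ 2 * (b ^ 2 - b))
    (e6 : B6 = lam ^ 3 * b ^ 2) (e8 : B8 = -lam ^ 4 * b ^ 3)
    (hψ : 3 * X0 ^ 4 + B2 * X0 ^ 3 + 3 * B4 * X0 ^ 2 + 3 * B6 * X0 + B8 = 0)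
    (hFx : Fx = 4 * X0 ^ 3 + B2 * X0 ^ 2 + 2 * B4 * X0 + B6) (hFx0 : Fx ≠ 0)
    (hΔ : Δ = -B2 ^ 2 * B8 - 8 * B4 ^ 3 - 27 * B6 ^ 2 + 9 * B2 * B4 * B6) :
    (9 * ((-X0) * (lam * b - X0) / (lam * b) ^ 2) + 1
      + 5 * (Δ / Fx ^ 2) * ((-X0) * (lam * b - X0) / (lam * b) ^ 2) ^ 3
      + (Δ / Fx ^ 2) ^ 2 * ((-X0) * (lam * b - X0) / (lam * b) ^ 2) ^ 5
      - (Δ / Fx ^ 2) ^ 2 * ((-X0) * (lam * b - X0) / (lam * b) ^ 2) ^ 6 = 0) ∧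
    (-X0) * (lam * b - X0) / (lam * b) ^ 2 ≠ 0 := by
  obtain ⟨z, rfl⟩ : ∃ z, X0 = lam * z := ⟨X0 / lam, by field_simp⟩
  subst e2 e4 e6 e8
  have hΨ : 3 * z ^ 4 + (b ^ 2 - 6 * b + 1) * z ^ 3 + 3 * (b ^ 2 - b) * z ^ 2 + 3 * b ^ 2 * z
      - b ^ 3 = 0 := by
    have h4 : lam ^ 4 ≠ 0 := pow_ne_zero 4 hlam
    apply mul_left_cancel₀ h4
    rw [mul_zero]
    linear_combination hψ
  set F := 4 * z ^ 3 + (b ^ 2 - 6 * b + 1) * z ^ 2 + 2 * (b ^ 2 - b) * z + b ^ 2 with hF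
  have hFx' : Fx = lam ^ 3 * F := by rw [hFx, hF]; ring
  have hF0 : F ≠ 0 := by
    intro h0
    apply hFx0
    rw [hFx', h0, mul_zero]
  have hΔ' : Δ = lam ^ 6 * (b ^ 5 * (b ^ 2 - 11 * b - 1)) := by rw [hΔ]; ring
  have hg : (-(lam * z)) * (lam * b - lam * z) / (lam * b) ^ 2 = z * (z - b) / b ^ 2 := by
    field_simp
    ring
  have hh : Δ / Fx ^ 2 = b ^ 5 * (b ^ 2 - 11 * b - 1) / F ^ 2 := by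
    rw [hΔ', hFx']
    field_simp
  rw [hg, hh]
  constructor
  · rw [key_frac hb hF0, hF, key_poly b z hΨ, zero_div]
  · have hz : z ≠ 0 := by
      rintro rfl
      apply hb
      have : b ^ 3 = 0 := by linear_combination -hΨ
      exact pow_eq_zero_iff (by norm_num) |>.mp this
    have hzb : z - b ≠ 0 := by
      intro h0
      have hzb' : z = b := by linear_combination h0
      subst hzb'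
      apply hb
      have : z ^ 5 = 0 := by linear_combination hΨ
      exact pow_eq_zero_iff (by norm_num) |>.mp this
    exact div_ne_zero (mul_ne_zero hz hzb) (pow_ne_zero 2 hb)

/-- The `X₀(3)` part: `c₄³ h = Δ (h + 27) (h + 3)³` for `h = Δ / f(x₀)²`. -/
theorem level_three (b2 b4 b6 b8 x0 : ℚ) (hrel : 4 * b8 = b2 * b6 - b4 ^ 2)
    (hx0 : 3 * x0 ^ 4 + b2 * x0 ^ 3 + 3 * b4 * x0 ^ 2 + 3 * b6 * x0 + b8 = 0)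
    (hf0 : 4 * x0 ^ 3 + b2 * x0 ^ 2 + 2 * b4 * x0 + b6 ≠ 0) :
    (b2 ^ 2 - 24 * b4) ^ 3 *
        ((-b2 ^ 2 * b8 - 8 * b4 ^ 3 - 27 * b6 ^ 2 + 9 * b2 * b4 * b6) /
          (4 * x0 ^ 3 + b2 * x0 ^ 2 + 2 * b4 * x0 + b6) ^ 2) =
      (-b2 ^ 2 * b8 - 8 * b4 ^ 3 - 27 * b6 ^ 2 + 9 * b2 * b4 * b6) *
        ((-b2 ^ 2 * b8 - 8 * b4 ^ 3 - 27 * b6 ^ 2 + 9 * b2 * b4 * b6) /
          (4 * x0 ^ 3 + b2 * x0 ^ 2 + 2 * b4 * x0 + b6) ^ 2 + 27) *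
        ((-b2 ^ 2 * b8 - 8 * b4 ^ 3 - 27 * b6 ^ 2 + 9 * b2 * b4 * b6) /
          (4 * x0 ^ 3 + b2 * x0 ^ 2 + 2 * b4 * x0 + b6) ^ 2 + 3) ^ 3 := by
  obtain ⟨F, hF⟩ : ∃ F, F = 4 * x0 ^ 3 + b2 * x0 ^ 2 + 2 * b4 * x0 + b6 := ⟨_, rfl⟩
  obtain ⟨Δ, hΔ⟩ : ∃ Δ, Δ = -b2 ^ 2 * b8 - 8 * b4 ^ 3 - 27 * b6 ^ 2 + 9 * b2 * b4 * b6 := ⟨_, rfl⟩
  obtain ⟨C, hC⟩ : ∃ C, C = b4 + b2 * x0 + 6 * x0 ^ 2 := ⟨_, rfl⟩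
  rw [← hF] at hf0 ⊢
  rw [← hΔ]
  have hBF : (b2 + 12 * x0) * F = C ^ 2 := by
    rw [hF, hC]
    linear_combination 4 * hx0 - hrel
  have hΔ' : Δ = C ^ 3 - 27 * F ^ 2 := by
    have e1 : Δ = -(b2 + 12 * x0) ^ 2 * 0 - 8 * C ^ 3 - 27 * F ^ 2 + 9 * (b2 + 12 * x0) * C * F := by
      rw [hΔ, hF, hC]
      linear_combination (6 * b2 * x0 + 36 * x0 ^ 2) * hrel - ((b2 + 12 * x0) ^ 2) * hx0
    rw [e1]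
    linear_combination (9 * C) * hBF
  have h27 : (Δ / F ^ 2 + 27) * F ^ 2 = C ^ 3 := by
    field_simp
    linear_combination hΔ'
  have hc4 : (b2 ^ 2 - 24 * b4) * F ^ 2 = C * (Δ / F ^ 2 + 3) * F ^ 2 := by
    have e2 : b2 ^ 2 - 24 * b4 = (b2 + 12 * x0) ^ 2 - 24 * C := by rw [hC]; ring
    have e3 : (Δ / F ^ 2 + 3) * F ^ 2 = C ^ 3 - 24 * F ^ 2 := by
      field_simp
      linear_combination hΔ'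
    rw [e2]
    have e4 : ((b2 + 12 * x0) * F) ^ 2 = C ^ 4 := by rw [hBF]; ring
    linear_combination e4 - C * e3
  have hF2 : F ^ 2 ≠ 0 := pow_ne_zero 2 hf0
  have hc4' : b2 ^ 2 - 24 * b4 = C * (Δ / F ^ 2 + 3) := by
    apply mul_right_cancel₀ hF2
    linear_combination hc4
  have hΔh : Δ = Δ / F ^ 2 * F ^ 2 := by field_simp
  rw [hc4']
  obtain ⟨h, hh⟩ : ∃ h, h = Δ / F ^ 2 := ⟨_, rfl⟩
  rw [← hh] at h27 hΔh ⊢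
  calc (C * (h + 3)) ^ 3 * h = h * (h + 3) ^ 3 * C ^ 3 := by ring
    _ = h * (h + 3) ^ 3 * ((h + 27) * F ^ 2) := by rw [h27]
    _ = (h * F ^ 2) * (h + 27) * (h + 3) ^ 3 := by ring
    _ = Δ * (h + 27) * (h + 3) ^ 3 := by rw [← hΔh]

/-- The modular relation in `K`, from the `5`-torsion data `(x1, x2)` and the `3`-torsion
abscissa `x0`. -/
theorem modular_relation_field {b2 b4 b6 b8 x0 x1 x2 : K}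
    (hrel : 4 * b8 = b2 * b6 - b4 ^ 2)
    (hx0 : 3 * x0 ^ 4 + b2 * x0 ^ 3 + 3 * b4 * x0 ^ 2 + 3 * b6 * x0 + b8 = 0)
    (hf0 : 4 * x0 ^ 3 + b2 * x0 ^ 2 + 2 * b4 * x0 + b6 ≠ 0)
    (hne : x1 ≠ x2)
    (hf1 : 4 * x1 ^ 3 + b2 * x1 ^ 2 + 2 * b4 * x1 + b6 ≠ 0)
    (hd1 : x1 ^ 4 - b4 * x1 ^ 2 - 2 * b6 * x1 - b8 =
      x2 * (4 * x1 ^ 3 + b2 * x1 ^ 2 + 2 * b4 * x1 + b6))
    (hd2 : x2 ^ 4 - b4 * x2 ^ 2 - 2 * b6 * x2 - b8 =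
      x1 * (4 * x2 ^ 3 + b2 * x2 ^ 2 + 2 * b4 * x2 + b6)) :
    (9 * ((x1 - x0) * (x2 - x0) / (x1 - x2) ^ 2) + 1
      + 5 * ((-b2 ^ 2 * b8 - 8 * b4 ^ 3 - 27 * b6 ^ 2 + 9 * b2 * b4 * b6) /
          (4 * x0 ^ 3 + b2 * x0 ^ 2 + 2 * b4 * x0 + b6) ^ 2) *
        ((x1 - x0) * (x2 - x0) / (x1 - x2) ^ 2) ^ 3
      + ((-b2 ^ 2 * b8 - 8 * b4 ^ 3 - 27 * b6 ^ 2 + 9 * b2 * b4 * b6) /
          (4 * x0 ^ 3 + b2 * x0 ^ 2 + 2 * b4 * x0 + b6) ^ 2) ^ 2 *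
        ((x1 - x0) * (x2 - x0) / (x1 - x2) ^ 2) ^ 5
      - ((-b2 ^ 2 * b8 - 8 * b4 ^ 3 - 27 * b6 ^ 2 + 9 * b2 * b4 * b6) /
          (4 * x0 ^ 3 + b2 * x0 ^ 2 + 2 * b4 * x0 + b6) ^ 2) ^ 2 *
        ((x1 - x0) * (x2 - x0) / (x1 - x2) ^ 2) ^ 6 = 0) ∧
    (x1 - x0) * (x2 - x0) / (x1 - x2) ^ 2 ≠ 0 := by
  have hd : x2 - x1 ≠ 0 := sub_ne_zero.mpr (Ne.symm hne)
  have hrel' : 4 * (b8 + 3 * b6 * x1 + 3 * b4 * x1 ^ 2 + b2 * x1 ^ 3 + 3 * x1 ^ 4) =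
      (b2 + 12 * x1) * (4 * x1 ^ 3 + b2 * x1 ^ 2 + 2 * b4 * x1 + b6)
        - (b4 + b2 * x1 + 6 * x1 ^ 2) ^ 2 := by
    linear_combination hrel
  have h8 : -(b8 + 3 * b6 * x1 + 3 * b4 * x1 ^ 2 + b2 * x1 ^ 3 + 3 * x1 ^ 4) =
      (x2 - x1) * (4 * x1 ^ 3 + b2 * x1 ^ 2 + 2 * b4 * x1 + b6) := by
    linear_combination hd1
  have hd4 : (x2 - x1) ^ 4 - (b4 + b2 * x1 + 6 * x1 ^ 2) * (x2 - x1) ^ 2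
      - 2 * (4 * x1 ^ 3 + b2 * x1 ^ 2 + 2 * b4 * x1 + b6) * (x2 - x1)
      - (b8 + 3 * b6 * x1 + 3 * b4 * x1 ^ 2 + b2 * x1 ^ 3 + 3 * x1 ^ 4) = 0 := by
    linear_combination hd2
  obtain ⟨e2, e4, e6, e8, ed⟩ := tate_param hd hf1 hrel' h8 hd4
  set B6 := 4 * x1 ^ 3 + b2 * x1 ^ 2 + 2 * b4 * x1 + b6 with hB6
  set d := x2 - x1 with hdd
  set lam := B6 / d ^ 2 with hlam
  set b := d ^ 3 / B6 with hb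
  have hlam0 : lam ≠ 0 := div_ne_zero hf1 (pow_ne_zero 2 hd)
  have hb0 : b ≠ 0 := div_ne_zero (pow_ne_zero 3 hd) hf1
  have hψ : 3 * (x0 - x1) ^ 4 + (b2 + 12 * x1) * (x0 - x1) ^ 3
      + 3 * (b4 + b2 * x1 + 6 * x1 ^ 2) * (x0 - x1) ^ 2 + 3 * B6 * (x0 - x1)
      + (b8 + 3 * b6 * x1 + 3 * b4 * x1 ^ 2 + b2 * x1 ^ 3 + 3 * x1 ^ 4) = 0 := by
    rw [hB6]
    linear_combination hx0
  have hFx : 4 * x0 ^ 3 + b2 * x0 ^ 2 + 2 * b4 * x0 + b6 =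
      4 * (x0 - x1) ^ 3 + (b2 + 12 * x1) * (x0 - x1) ^ 2
        + 2 * (b4 + b2 * x1 + 6 * x1 ^ 2) * (x0 - x1) + B6 := by
    rw [hB6]
    ring
  have hΔ : -b2 ^ 2 * b8 - 8 * b4 ^ 3 - 27 * b6 ^ 2 + 9 * b2 * b4 * b6 =
      -(b2 + 12 * x1) ^ 2 * (b8 + 3 * b6 * x1 + 3 * b4 * x1 ^ 2 + b2 * x1 ^ 3 + 3 * x1 ^ 4)
        - 8 * (b4 + b2 * x1 + 6 * x1 ^ 2) ^ 3 - 27 * B6 ^ 2
        + 9 * (b2 + 12 * x1) * (b4 + b2 * x1 + 6 * x1 ^ 2) * B6 := by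
    rw [hB6]
    linear_combination (6 * b2 * x1 + 36 * x1 ^ 2) * hrel
  have key := core_tate hlam0 hb0 e2 e4 e6 e8 hψ hFx hf0 hΔ
  have hg : (x1 - x0) * (x2 - x0) / (x1 - x2) ^ 2 =
      (-(x0 - x1)) * (lam * b - (x0 - x1)) / (lam * b) ^ 2 := by
    rw [← ed, hdd]
    congr 1 <;> ring
  rw [hg]
  exact key

/-- `f(x₀) ≠ 0` at a root of the `3`-division polynomial when `Δ ≠ 0`. -/
theorem f_ne_zero_of_psi3 (b2 b4 b6 b8 x0 : ℚ) (hrel : 4 * b8 = b2 * b6 - b4 ^ 2)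
    (hΔ : -b2 ^ 2 * b8 - 8 * b4 ^ 3 - 27 * b6 ^ 2 + 9 * b2 * b4 * b6 ≠ 0)
    (hx0 : 3 * x0 ^ 4 + b2 * x0 ^ 3 + 3 * b4 * x0 ^ 2 + 3 * b6 * x0 + b8 = 0) :
    4 * x0 ^ 3 + b2 * x0 ^ 2 + 2 * b4 * x0 + b6 ≠ 0 := by
  intro hF
  apply hΔ
  have hC2 : (b4 + b2 * x0 + 6 * x0 ^ 2) ^ 2 = 0 := by
    linear_combination hrel - 4 * hx0 + (b2 + 12 * x0) * hF
  have hC : b4 + b2 * x0 + 6 * x0 ^ 2 = 0 := by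
    exact pow_eq_zero_iff (by norm_num) |>.mp hC2
  linear_combination (6 * b2 * x0 + 36 * x0 ^ 2) * hrel - ((b2 + 12 * x0) ^ 2) * hx0
    + (-27 * (4 * x0 ^ 3 + b2 * x0 ^ 2 + 2 * b4 * x0 + b6)
        + 9 * (b2 + 12 * x0) * (b4 + b2 * x0 + 6 * x0 ^ 2)) * hF
    + (-8 * (b4 + b2 * x0 + 6 * x0 ^ 2) ^ 2) * hC

end UnitsB2

open UnitsB2 in
set_option linter.unusedVariables false in
/-- MODULE B2: the point of `X₀(15)` attached to `(E, C₃, C₅)`. -/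
theorem exists_cubic_point {K : Type*} [Field K] [CharZero K] (b2 b4 b6 b8 : ℚ)
    (hb8 : 4 * b8 = b2 * b6 - b4 ^ 2)
    (hΔ : -b2 ^ 2 * b8 - 8 * b4 ^ 3 - 27 * b6 ^ 2 + 9 * b2 * b4 * b6 ≠ 0)
    (x0 : ℚ) (hx0 : 3 * x0 ^ 4 + b2 * x0 ^ 3 + 3 * b4 * x0 ^ 2 + 3 * b6 * x0 + b8 = 0)
    (s1 s2 : ℚ) (x1 x2 : K) (hs1 : x1 + x2 = (s1 : K)) (hs2 : x1 * x2 = (s2 : K))
    (hne : x1 ≠ x2)
    (hf1 : 4 * x1 ^ 3 + b2 * x1 ^ 2 + 2 * b4 * x1 + b6 ≠ 0)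
    (hf2 : 4 * x2 ^ 3 + b2 * x2 ^ 2 + 2 * b4 * x2 + b6 ≠ 0)
    (hd1 : x1 ^ 4 - b4 * x1 ^ 2 - 2 * b6 * x1 - b8 =
      x2 * (4 * x1 ^ 3 + b2 * x1 ^ 2 + 2 * b4 * x1 + b6))
    (hd2 : x2 ^ 4 - b4 * x2 ^ 2 - 2 * b6 * x2 - b8 =
      x1 * (4 * x2 ^ 3 + b2 * x2 ^ 2 + 2 * b4 * x2 + b6)) :
    ∃ u v h : ℚ, u ≠ 0 ∧ v ≠ 0 ∧ h ≠ 0 ∧ u - v + u * v * (5 + u + 9 * v) = 0 ∧
      729 * v ^ 3 = h * u ^ 2 ∧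
      (b2 ^ 2 - 24 * b4) ^ 3 * h =
        (-b2 ^ 2 * b8 - 8 * b4 ^ 3 - 27 * b6 ^ 2 + 9 * b2 * b4 * b6) * (h + 27) * (h + 3) ^ 3 := by
  have hF0 := f_ne_zero_of_psi3 b2 b4 b6 b8 x0 hb8 hΔ hx0
  have hlev := level_three b2 b4 b6 b8 x0 hb8 hx0 hF0
  -- the relation in K
  have hrelK : 4 * (b8 : K) = (b2 : K) * (b6 : K) - (b4 : K) ^ 2 := by exact_mod_cast hb8
  have hx0K : 3 * (x0 : K) ^ 4 + (b2 : K) * (x0 : K) ^ 3 + 3 * (b4 : K) * (x0 : K) ^ 2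
      + 3 * (b6 : K) * (x0 : K) + (b8 : K) = 0 := by exact_mod_cast hx0
  have hF0K : 4 * (x0 : K) ^ 3 + (b2 : K) * (x0 : K) ^ 2 + 2 * (b4 : K) * (x0 : K) + (b6 : K)
      ≠ 0 := by
    have : ((4 * x0 ^ 3 + b2 * x0 ^ 2 + 2 * b4 * x0 + b6 : ℚ) : K) ≠ 0 :=
      Rat.cast_ne_zero.mpr hF0
    simpa using this
  obtain ⟨hmod, hg0⟩ := modular_relation_field hrelK hx0K hF0K hne hf1 hd1 hd2
  obtain ⟨h, hh⟩ : ∃ h : ℚ, h = (-b2 ^ 2 * b8 - 8 * b4 ^ 3 - 27 * b6 ^ 2 + 9 * b2 * b4 * b6) /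
    (4 * x0 ^ 3 + b2 * x0 ^ 2 + 2 * b4 * x0 + b6) ^ 2 := ⟨_, rfl⟩
  obtain ⟨g, hg⟩ : ∃ g : ℚ, g = (x0 ^ 2 - s1 * x0 + s2) / (s1 ^ 2 - 4 * s2) := ⟨_, rfl⟩
  rw [← hh] at hlev
  have hgK : ((g : ℚ) : K) = (x1 - (x0 : K)) * (x2 - (x0 : K)) / (x1 - x2) ^ 2 := by
    rw [hg]
    push_cast
    rw [← hs1, ← hs2]
    congr 1 <;> ring
  have hhK : ((h : ℚ) : K) = (-(b2 : K) ^ 2 * (b8 : K) - 8 * (b4 : K) ^ 3 - 27 * (b6 : K) ^ 2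
      + 9 * (b2 : K) * (b4 : K) * (b6 : K)) /
      (4 * (x0 : K) ^ 3 + (b2 : K) * (x0 : K) ^ 2 + 2 * (b4 : K) * (x0 : K) + (b6 : K)) ^ 2 := by
    rw [hh]
    push_cast
    rfl
  rw [← hgK, ← hhK] at hmod
  rw [← hgK] at hg0
  have hg0' : g ≠ 0 := by
    intro h0
    apply hg0
    rw [h0, Rat.cast_zero]
  have hh0 : h ≠ 0 := by rw [hh]; exact div_ne_zero hΔ (pow_ne_zero 2 hF0)
  have hmodQ : 9 * g + 1 + 5 * h * g ^ 3 + h ^ 2 * g ^ 5 - h ^ 2 * g ^ 6 = 0 := by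
    have : ((9 * g + 1 + 5 * h * g ^ 3 + h ^ 2 * g ^ 5 - h ^ 2 * g ^ 6 : ℚ) : K) = 0 := by
      push_cast
      exact hmod
    exact_mod_cast this
  refine ⟨-h * g ^ 3, h * g ^ 2 / 9, h, ?_, ?_, hh0, ?_, ?_, hlev⟩
  · exact mul_ne_zero (neg_ne_zero.mpr hh0) (pow_ne_zero 3 hg0')
  · exact div_ne_zero (mul_ne_zero hh0 (pow_ne_zero 2 hg0')) (by norm_num)
  · linear_combination (-(h * g ^ 2 / 9)) * hmodQ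
  · ring

end Fermat.Agent.S51
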