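import Mathlib

set_option autoImplicit false

namespace Fermat.Agent.S51.A

open WeierstrassCurve WeierstrassCurve.Affine

variable {F : Type} [Field F] (W : WeierstrassCurve F)

/-- The x-coordinate of an affine point (`0` for the point at infinity). -/
def xOf : W.toAffine.Point → F
  | .zero => 0
  | .some x _ _ => x

@[simp] theorem xOf_some {x y : F} (h : W.toAffine.Nonsingular x y) :
    xOf W (Point.some x y h) = x := rfl

theorem xOf_neg (A : W.toAffine.Point) : xOf W (-A) = xOf W A := by
  cases A <;> rfl

theorem xOf_eq_iff {A B : W.toAffine.Point} (hA : A ≠ 0) (hB : B ≠ 0) :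
    xOf W A = xOf W B ↔ A = B ∨ A = -B := by
  cases A with
  | zero => exact absurd rfl hA
  | some x₁ y₁ h₁ =>
    cases B with
    | zero => exact absurd rfl hB
    | some x₂ y₂ h₂ =>
      simp only [xOf_some]
      exact Point.X_eq_iff

theorem exists_some_of_ne_zero {A : W.toAffine.Point} (hA : A ≠ 0) :
    ∃ (x y : F) (h : W.toAffine.Nonsingular x y), A = Point.some x y h := by
  cases A with
  | zero => exact absurd rfl hA
  | some x y h => exact ⟨x, y, h, rfl⟩

end Fermat.Agent.S51.A
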