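import Fermat.Agent.S51.Tors3
import Fermat.Agent.S51.XCoord

set_option autoImplicit false

namespace Fermat.Agent.S51.A

open WeierstrassCurve WeierstrassCurve.Affine Polynomial

variable {F : Type} [Field F] (W : WeierstrassCurve F)

theorem eval_Ψ₃ (x : F) : W.Ψ₃.eval x = psi3 W x := by
  simp [WeierstrassCurve.Ψ₃, psi3]

variable [DecidableEq F]

theorem psi3_xOf_of_three_nsmul (hΔ : W.Δ ≠ 0) {A : W.toAffine.Point} (hA : A ≠ 0)
    (h3 : (3 : ℕ) • A = 0) : psi3 W (xOf W A) = 0 := by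
  obtain ⟨x, y, h, rfl⟩ := exists_some_of_ne_zero W hA
  exact (three_nsmul_some_eq_zero_iff W hΔ h).mp h3

theorem exists_three_torsion [IsAlgClosed F] (h3 : (3 : F) ≠ 0) (hΔ : W.Δ ≠ 0) :
    ∃ A : W.toAffine.Point, A ≠ 0 ∧ (3 : ℕ) • A = 0 := by
  have hdeg : W.Ψ₃.degree ≠ 0 := by
    rw [Polynomial.degree_eq_natDegree (W.Ψ₃_ne_zero h3), W.natDegree_Ψ₃ h3]
    norm_num
  obtain ⟨x, hx⟩ := IsAlgClosed.exists_root W.Ψ₃ hdeg
  rw [Polynomial.IsRoot, eval_Ψ₃] at hx
  -- a y-coordinate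
  let q : F[X] := X ^ 2 + C (W.a₁ * x + W.a₃) * X - C (x ^ 3 + W.a₂ * x ^ 2 + W.a₄ * x + W.a₆)
  have hqdeg : q.degree ≠ 0 := by
    have : q.degree = 2 := by
      dsimp only [q]
      compute_degree!
    rw [this]; norm_num
  obtain ⟨y, hy⟩ := IsAlgClosed.exists_root q hqdeg
  have heq : W.toAffine.Equation x y := by
    rw [equation_iff']
    have : q.eval y = 0 := hy
    simp only [q, eval_sub, eval_add, eval_pow, eval_X, eval_mul, eval_C] at this
    linear_combination this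
  have hns : W.toAffine.Nonsingular x y :=
    (W.toAffine.equation_iff_nonsingular_of_Δ_ne_zero hΔ).mp heq
  exact ⟨Point.some x y hns, Point.some_ne_zero hns,
    (three_nsmul_some_eq_zero_iff W hΔ hns).mpr hx⟩

end Fermat.Agent.S51.A
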