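import Fermat.Prelude.Def_FLTPrelim_GaloisRep
import Fermat.Agent.S51.Tors3b
import Fermat.Agent.S51.LineLemma

set_option autoImplicit false

namespace Fermat.Agent.S51.A

open WeierstrassCurve WeierstrassCurve.Affine WeierstrassCurve.Affine.Point

abbrev Qb : Type := AlgebraicClosure ℚ

theorem isAlgClosure_Qb : IsAlgClosure ℚ Qb :=
  letI : Algebra ℚ (AlgebraicClosure ℚ) := AlgebraicClosure.instAlgebra ℚ
  (inferInstance : IsAlgClosure ℚ (AlgebraicClosure ℚ))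

theorem isGalois_Qb : IsGalois ℚ Qb :=
  haveI := isAlgClosure_Qb
  inferInstance

/-- An element of `Qb` fixed by the whole Galois group is rational. -/
theorem exists_rat_of_fixed (x : Qb) (h : ∀ σ : Qb ≃ₐ[ℚ] Qb, σ x = x) :
    ∃ q : ℚ, algebraMap ℚ Qb q = x := by
  haveI := isGalois_Qb
  exact (InfiniteGalois.mem_range_algebraMap_iff_fixed x).mpr h

variable (E : WeierstrassCurve ℚ)

theorem xOf_smul (σ : Qb ≃ₐ[ℚ] Qb) (A : (E⁄Qb).Point) :
    xOf (E⁄Qb) (σ • A) = σ (xOf (E⁄Qb) A) := by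
  rw [algEquiv_smul_def]
  cases A with
  | zero =>
    change xOf (E⁄Qb) (Point.map σ.toAlgHom 0) = σ (xOf (E⁄Qb) 0)
    rw [Point.map_zero]
    exact (_root_.map_zero σ).symm
  | some x y h => rw [Point.map_some]; rfl

theorem smul_ne_zero_of_ne_zero (σ : Qb ≃ₐ[ℚ] Qb) {A : (E⁄Qb).Point} (hA : A ≠ 0) :
    σ • A ≠ 0 := by
  intro h
  apply hA
  rw [← inv_smul_smul σ A, h]
  exact smul_zero (A := (E⁄Qb).Point) σ⁻¹

end Fermat.Agent.S51.A

namespace Fermat.Agent.S51.A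

open WeierstrassCurve WeierstrassCurve.Affine WeierstrassCurve.Affine.Point

variable (E : WeierstrassCurve ℚ)

theorem baseChange_Δ_ne_zero (hΔ : E.Δ ≠ 0) : (E⁄Qb).Δ ≠ 0 := by
  change (E.map (algebraMap ℚ Qb)).Δ ≠ 0
  rw [WeierstrassCurve.map_Δ]
  exact (map_ne_zero (algebraMap ℚ Qb)).mpr hΔ

theorem psi3_baseChange (q : ℚ) :
    psi3 (E⁄Qb) (algebraMap ℚ Qb q) = algebraMap ℚ Qb (psi3 E q) := by
  change psi3 (E.map (algebraMap ℚ Qb)) (algebraMap ℚ Qb q) = algebraMap ℚ Qb (psi3 E q)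
  simp [psi3]

theorem three_nsmul_of_mem_torsion (v : Submodule.torsionBy ℤ (E⁄Qb).Point (3 : ℕ)) :
    (3 : ℕ) • (v : (E⁄Qb).Point) = 0 := by
  have h := v.2
  rw [Submodule.mem_torsionBy_iff] at h
  rw [← natCast_zsmul]
  exact h

theorem zmod_three_cases : ∀ c : ZMod 3, c = 0 ∨ c = 1 ∨ c = -1 := by decide

theorem nontrivial_three_torsion (hΔ : E.Δ ≠ 0) :
    Nontrivial (Submodule.torsionBy ℤ (E⁄Qb).Point (3 : ℕ)) := by
  have h3 : (3 : Qb) ≠ 0 := by norm_num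
  obtain ⟨A, hA, hA3⟩ := exists_three_torsion (E⁄Qb) h3 (baseChange_Δ_ne_zero E hΔ)
  have hmem : A ∈ Submodule.torsionBy ℤ (E⁄Qb).Point (3 : ℕ) := by
    rw [Submodule.mem_torsionBy_iff, natCast_zsmul]
    exact hA3
  refine ⟨⟨⟨A, hmem⟩, 0, ?_⟩⟩
  intro h
  exact hA (congrArg Subtype.val h)

theorem exists_rational_root_psi3 (hΔ : E.Δ ≠ 0)
    (hred : ¬ GaloisRepIsIrreducible (K := Qb) ℚ E 3) : ∃ x0 : ℚ, psi3 E x0 = 0 := by
  haveI : Fact (Nat.Prime 3) := ⟨Nat.prime_three⟩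
  have hΔ' := baseChange_Δ_ne_zero E hΔ
  have h3 : (3 : Qb) ≠ 0 := by norm_num
  -- a stable proper nonzero submodule
  have hex : ∃ N : Submodule (ZMod 3) (Submodule.torsionBy ℤ (E⁄Qb).Point (3 : ℕ)),
      IsGaloisStable ℚ N ∧ N ≠ ⊥ ∧ N ≠ ⊤ := by
    by_contra hcon
    apply hred
    refine ⟨nontrivial_three_torsion E hΔ, fun N hN => ?_⟩
    by_contra h
    push Not at h
    exact hcon ⟨N, hN, h.1, h.2⟩
  obtain ⟨N, hstable, hbot, htop⟩ := hex
  obtain ⟨P, hPN, hP0⟩ := Submodule.exists_mem_ne_zero_of_ne_bot hbot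
  -- no three independent vectors
  have hno3 := not_linearIndependent_three (p := 3)
    (V := Submodule.torsionBy ℤ (E⁄Qb).Point (3 : ℕ))
    (fun v => xOf (E⁄Qb) (v : (E⁄Qb).Point)) (E⁄Qb).Ψ₃ ((E⁄Qb).Ψ₃_ne_zero h3)
    (by have := (E⁄Qb).natDegree_Ψ₃_le; omega)
    (by
      intro v hv
      have hv' : (v : (E⁄Qb).Point) ≠ 0 := fun h => hv (Subtype.ext h)
      rw [Polynomial.IsRoot, eval_Ψ₃]
      exact psi3_xOf_of_three_nsmul (E⁄Qb) hΔ' hv' (three_nsmul_of_mem_torsion E v))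
    (by
      intro v w hv hw hvw
      have hv' : (v : (E⁄Qb).Point) ≠ 0 := fun h => hv (Subtype.ext h)
      have hw' : (w : (E⁄Qb).Point) ≠ 0 := fun h => hw (Subtype.ext h)
      rcases (xOf_eq_iff (E⁄Qb) hv' hw').mp hvw with h | h
      · exact Or.inl (Subtype.ext h)
      · exact Or.inr (Subtype.ext h))
  have hP0' : (P : (E⁄Qb).Point) ≠ 0 := fun h => hP0 (Subtype.ext h)
  -- the x-coordinate of P is Galois-fixed
  have hfix : ∀ σ : Qb ≃ₐ[ℚ] Qb, σ (xOf (E⁄Qb) (P : (E⁄Qb).Point)) = xOf (E⁄Qb) P := by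
    intro σ
    obtain ⟨c, hc⟩ := exists_smul_eq_of_proper hno3 N htop hPN hP0 (hstable σ P hPN)
    have hσP : ((σ • P : Submodule.torsionBy ℤ (E⁄Qb).Point (3 : ℕ)) : (E⁄Qb).Point)
        = σ • (P : (E⁄Qb).Point) := rfl
    rw [← xOf_smul, ← hσP, hc]
    rcases zmod_three_cases c with rfl | rfl | rfl
    · exfalso
      rw [zero_smul] at hc
      have := congrArg Subtype.val hc
      rw [hσP] at this
      exact smul_ne_zero_of_ne_zero E σ hP0' this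
    · rw [one_smul]
    · rw [neg_smul, one_smul]
      exact xOf_neg (E⁄Qb) P
  obtain ⟨x0, hx0⟩ := exists_rat_of_fixed _ hfix
  refine ⟨x0, ?_⟩
  have h1 := psi3_xOf_of_three_nsmul (E⁄Qb) hΔ' hP0' (three_nsmul_of_mem_torsion E P)
  rw [← hx0, psi3_baseChange] at h1
  exact (map_eq_zero (algebraMap ℚ Qb)).mp h1

end Fermat.Agent.S51.A
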