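import Mathlib

set_option autoImplicit false

namespace Fermat.Agent.S51

namespace Descent

/-- If `a * b = k ^ 2` with `0 < a`, then `a` is `gcd a b` times a square. -/
lemma eq_gcd_mul_sq {a b k : ℤ} (ha : 0 < a) (h : a * b = k ^ 2) :
    ∃ s : ℤ, a = (Int.gcd a b : ℤ) * s ^ 2 := by
  have hg : 0 < Int.gcd a b := Int.gcd_pos_of_ne_zero_left b ha.ne'
  obtain ⟨a', b', hcop, ha', hb'⟩ := Int.exists_gcd_one hg
  set g : ℤ := (Int.gcd a b : ℤ) with hgdef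
  have hgpos : 0 < g := by rw [hgdef]; exact_mod_cast hg
  have h1 : g ^ 2 * (a' * b') = k ^ 2 := by
    rw [← h]; nth_rewrite 1 [ha']; nth_rewrite 1 [hb']; ring
  have hdvd : g ∣ k := by
    have : g ^ 2 ∣ k ^ 2 := Dvd.intro _ h1
    exact (Int.pow_dvd_pow_iff two_ne_zero).mp this
  obtain ⟨k', rfl⟩ := hdvd
  have h2 : a' * b' = k' ^ 2 := by
    have hg2 : g ^ 2 ≠ 0 := pow_ne_zero 2 hgpos.ne'
    apply mul_left_cancel₀ hg2
    rw [h1]; ring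
  obtain ⟨s, hs | hs⟩ := Int.sq_of_gcd_eq_one hcop h2
  · exact ⟨s, by rw [ha', hs]; ring⟩
  · exfalso
    have ha'pos : 0 < a' := by
      by_contra hneg
      have hneg := not_lt.mp hneg
      have : a' * g ≤ 0 := mul_nonpos_of_nonpos_of_nonneg hneg hgpos.le
      rw [← ha'] at this
      linarith
    have : 0 ≤ s ^ 2 := sq_nonneg s
    linarith

lemma class81 {a b k : ℤ} (ha : 0 < a) (h : a * b = k ^ 2) (hg : Int.gcd a b ∣ 81) :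
    ∃ p : ℤ, a = p ^ 2 ∨ a = 3 * p ^ 2 := by
  obtain ⟨s, hs⟩ := eq_gcd_mul_sq ha h
  have hmem : Int.gcd a b ∈ ({1, 3, 9, 27, 81} : Finset ℕ) := by
    have hd : Nat.divisors 81 = {1, 3, 9, 27, 81} := by decide
    rw [← hd]
    exact Nat.mem_divisors.mpr ⟨hg, by norm_num⟩
  simp only [Finset.mem_insert, Finset.mem_singleton] at hmem
  rcases hmem with h1 | h1 | h1 | h1 | h1 <;> rw [h1] at hs
  · exact ⟨s, Or.inl (by rw [hs]; push_cast; ring)⟩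
  · exact ⟨s, Or.inr (by rw [hs]; push_cast; ring)⟩
  · exact ⟨3 * s, Or.inl (by rw [hs]; push_cast; ring)⟩
  · exact ⟨3 * s, Or.inr (by rw [hs]; push_cast; ring)⟩
  · exact ⟨9 * s, Or.inl (by rw [hs]; push_cast; ring)⟩

lemma class80 {a b k : ℤ} (ha : 0 < a) (h : a * b = k ^ 2) (hg : Int.gcd a b ∣ 80) :
    ∃ q : ℤ, a = q ^ 2 ∨ a = 2 * q ^ 2 ∨ a = 5 * q ^ 2 ∨ a = 10 * q ^ 2 := by
  obtain ⟨s, hs⟩ := eq_gcd_mul_sq ha h
  have hmem : Int.gcd a b ∈ ({1, 2, 4, 5, 8, 10, 16, 20, 40, 80} : Finset ℕ) := by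
    have hd : Nat.divisors 80 = {1, 2, 4, 5, 8, 10, 16, 20, 40, 80} := by decide
    rw [← hd]
    exact Nat.mem_divisors.mpr ⟨hg, by norm_num⟩
  simp only [Finset.mem_insert, Finset.mem_singleton] at hmem
  rcases hmem with h1 | h1 | h1 | h1 | h1 | h1 | h1 | h1 | h1 | h1 <;> rw [h1] at hs
  · exact ⟨s, Or.inl (by rw [hs]; push_cast; ring)⟩
  · exact ⟨s, Or.inr (Or.inl (by rw [hs]; push_cast; ring))⟩
  · exact ⟨2 * s, Or.inl (by rw [hs]; push_cast; ring)⟩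
  · exact ⟨s, Or.inr (Or.inr (Or.inl (by rw [hs]; push_cast; ring)))⟩
  · exact ⟨2 * s, Or.inr (Or.inl (by rw [hs]; push_cast; ring))⟩
  · exact ⟨s, Or.inr (Or.inr (Or.inr (by rw [hs]; push_cast; ring)))⟩
  · exact ⟨4 * s, Or.inl (by rw [hs]; push_cast; ring)⟩
  · exact ⟨2 * s, Or.inr (Or.inr (Or.inl (by rw [hs]; push_cast; ring)))⟩
  · exact ⟨2 * s, Or.inr (Or.inr (Or.inr (by rw [hs]; push_cast; ring)))⟩
  · exact ⟨4 * s, Or.inr (Or.inr (Or.inl (by rw [hs]; push_cast; ring)))⟩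

lemma key3 : ∀ p c q : ZMod 3, 3 * p ^ 2 - c ^ 2 = q ^ 2 → c = 0 := by decide

lemma key5 : ∀ p c q : ZMod 5, 3 * p ^ 2 - c ^ 2 = 5 * q ^ 2 → p = 0 ∧ c = 0 := by decide

lemma key5' : ∀ p c q r : ZMod 5, 3 * p ^ 2 - c ^ 2 = 2 * q ^ 2 →
    3 * 2 * (3 * p ^ 2 - 81 * c ^ 2) = r ^ 2 → p = 0 ∧ c = 0 := by decide

set_option maxRecDepth 100000 in
lemma key16 : ∀ p c q r : ZMod 16, p ^ 2 - c ^ 2 = 2 * q ^ 2 → q ^ 2 - r ^ 2 = 40 * c ^ 2 →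
    8 * p = 0 ∧ 8 * c = 0 := by decide

set_option maxRecDepth 100000 in
lemma key16' : ∀ p c q r : ZMod 16, p ^ 2 - c ^ 2 = 10 * q ^ 2 → q ^ 2 - r ^ 2 = 8 * c ^ 2 →
    8 * p = 0 ∧ 8 * c = 0 := by decide

lemma two_dvd_of_eight_mul_cast_eq_zero {p : ℤ} (h : 8 * (p : ZMod 16) = 0) : (2 : ℤ) ∣ p := by
  have h' : ((8 * p : ℤ) : ZMod 16) = 0 := by push_cast; exact h
  have := (ZMod.intCast_zmod_eq_zero_iff_dvd (8 * p) 16).mp h'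
  omega

lemma excl_3_1 {p c q : ℤ} (h : 3 * p ^ 2 - c ^ 2 = q ^ 2) : (3 : ℤ) ∣ c := by
  have h' := congrArg (Int.cast : ℤ → ZMod 3) h
  push_cast at h'
  exact (ZMod.intCast_zmod_eq_zero_iff_dvd c 3).mp (key3 _ _ _ h')

lemma excl_3_10 {p c q : ℤ} (h : 3 * p ^ 2 - c ^ 2 = 10 * q ^ 2) : (3 : ℤ) ∣ c := by
  have h' := congrArg (Int.cast : ℤ → ZMod 3) h
  push_cast at h'
  have h10 : (10 : ZMod 3) = 1 := by decide
  rw [h10, one_mul] at h'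
  exact (ZMod.intCast_zmod_eq_zero_iff_dvd c 3).mp (key3 _ _ _ h')

lemma excl_3_5 {p c q : ℤ} (h : 3 * p ^ 2 - c ^ 2 = 5 * q ^ 2) : (5 : ℤ) ∣ p ∧ (5 : ℤ) ∣ c := by
  have h' := congrArg (Int.cast : ℤ → ZMod 5) h
  push_cast at h'
  obtain ⟨hp, hc⟩ := key5 _ _ _ h'
  exact ⟨(ZMod.intCast_zmod_eq_zero_iff_dvd p 5).mp hp, (ZMod.intCast_zmod_eq_zero_iff_dvd c 5).mp hc⟩

lemma excl_3_2 {p c q r : ℤ} (h1 : 3 * p ^ 2 - c ^ 2 = 2 * q ^ 2)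
    (h2 : 3 * 2 * (3 * p ^ 2 - 81 * c ^ 2) = r ^ 2) : (5 : ℤ) ∣ p ∧ (5 : ℤ) ∣ c := by
  have h1' := congrArg (Int.cast : ℤ → ZMod 5) h1
  have h2' := congrArg (Int.cast : ℤ → ZMod 5) h2
  push_cast at h1' h2'
  obtain ⟨hp, hc⟩ := key5' _ _ _ _ h1' h2'
  exact ⟨(ZMod.intCast_zmod_eq_zero_iff_dvd p 5).mp hp, (ZMod.intCast_zmod_eq_zero_iff_dvd c 5).mp hc⟩

lemma excl_1_2 {p c q r : ℤ} (h1 : p ^ 2 - c ^ 2 = 2 * q ^ 2)
    (h2 : 2 * (p ^ 2 - 81 * c ^ 2) = r ^ 2) : (2 : ℤ) ∣ p ∧ (2 : ℤ) ∣ c := by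
  have hev : Even (r ^ 2) := ⟨p ^ 2 - 81 * c ^ 2, by rw [← h2]; ring⟩
  obtain ⟨r1, hr1⟩ := (Int.even_pow.mp hev).1
  have h3 : p ^ 2 - 81 * c ^ 2 = 2 * r1 ^ 2 := by
    have : 2 * (p ^ 2 - 81 * c ^ 2) = 2 * (2 * r1 ^ 2) := by rw [h2, hr1]; ring
    linarith
  have h4 : q ^ 2 - r1 ^ 2 = 40 * c ^ 2 := by linarith
  have h1' := congrArg (Int.cast : ℤ → ZMod 16) h1
  have h4' := congrArg (Int.cast : ℤ → ZMod 16) h4
  push_cast at h1' h4'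
  obtain ⟨hp, hc⟩ := key16 _ _ _ _ h1' h4'
  exact ⟨two_dvd_of_eight_mul_cast_eq_zero hp, two_dvd_of_eight_mul_cast_eq_zero hc⟩

lemma excl_1_10 {p c q r : ℤ} (h1 : p ^ 2 - c ^ 2 = 10 * q ^ 2)
    (h2 : 10 * (p ^ 2 - 81 * c ^ 2) = r ^ 2) : (2 : ℤ) ∣ p ∧ (2 : ℤ) ∣ c := by
  have hev : Even (r ^ 2) := ⟨5 * (p ^ 2 - 81 * c ^ 2), by rw [← h2]; ring⟩
  have h2r : (2 : ℤ) ∣ r := even_iff_two_dvd.mp (Int.even_pow.mp hev).1
  have h5 : Prime (5 : ℤ) := Int.prime_iff_natAbs_prime.mpr (by norm_num)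
  have h5r : (5 : ℤ) ∣ r := h5.dvd_of_dvd_pow (n := 2) ⟨2 * (p ^ 2 - 81 * c ^ 2), by rw [← h2]; ring⟩
  have hcop : IsCoprime (2 : ℤ) 5 := by norm_num
  obtain ⟨r1, hr1⟩ := hcop.mul_dvd h2r h5r
  have h3 : p ^ 2 - 81 * c ^ 2 = 10 * r1 ^ 2 := by
    have : 10 * (p ^ 2 - 81 * c ^ 2) = 10 * (10 * r1 ^ 2) := by rw [h2, hr1]; ring
    linarith
  have h4 : q ^ 2 - r1 ^ 2 = 8 * c ^ 2 := by linarith
  have h1' := congrArg (Int.cast : ℤ → ZMod 16) h1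
  have h4' := congrArg (Int.cast : ℤ → ZMod 16) h4
  push_cast at h1' h4'
  obtain ⟨hp, hc⟩ := key16' _ _ _ _ h1' h4'
  exact ⟨two_dvd_of_eight_mul_cast_eq_zero hp, two_dvd_of_eight_mul_cast_eq_zero hc⟩

lemma not_coprime_of_dvd {m n l : ℤ} (hcop : IsCoprime m n) (h1 : l ∣ m) (h2 : l ∣ n)
    (hl : 1 < l) : False := by
  have hu := hcop.isUnit_of_dvd' h1 h2
  rcases Int.isUnit_iff.mp hu with h | h <;> omega

lemma sq_cancel {x y e : ℤ} (hx : x ≠ 0) (h : x ^ 2 * y = e ^ 2) : ∃ r : ℤ, y = r ^ 2 := by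
  have hdvd : x ∣ e := (Int.pow_dvd_pow_iff two_ne_zero).mp (Dvd.intro _ h)
  obtain ⟨r, rfl⟩ := hdvd
  refine ⟨r, ?_⟩
  have hx2 : x ^ 2 ≠ 0 := pow_ne_zero 2 hx
  apply mul_left_cancel₀ hx2
  rw [h]; ring

lemma gcd_dvd_81 {m n : ℤ} (hcop : IsCoprime m n) :
    Int.gcd m ((m - n) * (m - 81 * n)) ∣ 81 := by
  set d : ℕ := Int.gcd m ((m - n) * (m - 81 * n)) with hd
  have hdm : (d : ℤ) ∣ m := Int.gcd_dvd_left _ _
  have hdp : (d : ℤ) ∣ (m - n) * (m - 81 * n) := Int.gcd_dvd_right _ _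
  have hcop_mB : IsCoprime m (m - n) := by
    have := (hcop.neg_right).add_mul_left_right 1
    have e : m - n = -n + m * 1 := by ring
    rw [e]; exact this
  have h1 : IsCoprime (d : ℤ) (m - n) := hcop_mB.of_isCoprime_of_dvd_left hdm
  have h2 : (d : ℤ) ∣ m - 81 * n := h1.dvd_of_dvd_mul_left hdp
  have h3 : (d : ℤ) ∣ 81 * n := by
    have := dvd_sub hdm h2
    have e : 81 * n = m - (m - 81 * n) := by ring
    rw [e]; exact this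
  have h4 : IsCoprime (d : ℤ) n := hcop.of_isCoprime_of_dvd_left hdm
  have h5 : (d : ℤ) ∣ 81 := h4.dvd_of_dvd_mul_right h3
  exact_mod_cast h5

lemma gcd_dvd_80 {m n : ℤ} (hcop : IsCoprime m n) :
    Int.gcd (m - n) (m * (m - 81 * n)) ∣ 80 := by
  set d : ℕ := Int.gcd (m - n) (m * (m - 81 * n)) with hd
  have hdB : (d : ℤ) ∣ m - n := Int.gcd_dvd_left _ _
  have hdp : (d : ℤ) ∣ m * (m - 81 * n) := Int.gcd_dvd_right _ _
  have hcop_Bm : IsCoprime (m - n) m := by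
    have := ((hcop.neg_right).add_mul_left_right 1).symm
    have e : m - n = -n + m * 1 := by ring
    rw [e]; exact this
  have hcop_Bn : IsCoprime (m - n) n := by
    have := (hcop.symm.add_mul_left_right (-1)).symm
    have e : m - n = m + n * (-1) := by ring
    rw [e]; exact this
  have h1 : IsCoprime (d : ℤ) m := hcop_Bm.of_isCoprime_of_dvd_left hdB
  have h2 : (d : ℤ) ∣ m - 81 * n := h1.dvd_of_dvd_mul_left hdp
  have h3 : (d : ℤ) ∣ 80 * n := by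
    have := dvd_sub hdB h2
    have e : 80 * n = m - n - (m - 81 * n) := by ring
    rw [e]; exact this
  have h4 : IsCoprime (d : ℤ) n := hcop_Bn.of_isCoprime_of_dvd_left hdB
  have h5 : (d : ℤ) ∣ 80 := h4.dvd_of_dvd_mul_right h3
  exact_mod_cast h5

end Descent

end Fermat.Agent.S51
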