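import Fermat.Agent.S51.DescentAux

set_option autoImplicit false

namespace Fermat.Agent.S51

namespace Descent

/-- Normal form after the 2-descent: `m = d1 p^2`, `n = c^2`, `m - n = dl q^2`,
`d1 dl (m - 81 n) = r^2` with `d1 ∈ {1,3}`, `dl ∈ {1,2,5,10}`. -/
lemma normal_form {m n k : ℤ} (hn : 0 < n) (hmn : 81 * n < m) (hcop : IsCoprime m n)
    (hk : n * m * (m - n) * (m - 81 * n) = k ^ 2) :
    ∃ d1 dl p c q r : ℤ, (d1 = 1 ∨ d1 = 3) ∧ (dl = 1 ∨ dl = 2 ∨ dl = 5 ∨ dl = 10) ∧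
      p ≠ 0 ∧ c ≠ 0 ∧ q ≠ 0 ∧ r ≠ 0 ∧
      m = d1 * p ^ 2 ∧ n = c ^ 2 ∧ m - n = dl * q ^ 2 ∧ d1 * dl * (m - 81 * n) = r ^ 2 := by
  have hm : 0 < m := by linarith
  have hB : 0 < m - n := by linarith
  have hC : 0 < m - 81 * n := by linarith
  have hcop_nm : IsCoprime n m := hcop.symm
  have hcop_nB : IsCoprime n (m - n) := by
    have := hcop_nm.add_mul_left_right (-1)
    have e : m - n = m + n * (-1) := by ring
    rw [e]; exact this
  have hcop_nC : IsCoprime n (m - 81 * n) := by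
    have := hcop_nm.add_mul_left_right (-81)
    have e : m - 81 * n = m + n * (-81) := by ring
    rw [e]; exact this
  have hcopT : IsCoprime n (m * (m - n) * (m - 81 * n)) :=
    (hcop_nm.mul_right hcop_nB).mul_right hcop_nC
  have hT : 0 < m * (m - n) * (m - 81 * n) := by positivity
  have hk' : n * (m * (m - n) * (m - 81 * n)) = k ^ 2 := by rw [← hk]; ring
  -- n is a square
  obtain ⟨c, hc⟩ : ∃ c : ℤ, n = c ^ 2 := by
    obtain ⟨c, hc | hc⟩ := Int.sq_of_isCoprime hcopT hk'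
    · exact ⟨c, hc⟩
    · exfalso; have := sq_nonneg c; linarith
  -- the cofactor is a square
  obtain ⟨e, he⟩ : ∃ e : ℤ, m * (m - n) * (m - 81 * n) = e ^ 2 := by
    have hk'' : (m * (m - n) * (m - 81 * n)) * n = k ^ 2 := by rw [← hk]; ring
    obtain ⟨e, he | he⟩ := Int.sq_of_isCoprime hcopT.symm hk''
    · exact ⟨e, he⟩
    · exfalso; have := sq_nonneg e; linarith
  have hc0 : c ≠ 0 := by
    rintro rfl
    simp at hc
    omega
  -- m = d1 p^2
  have heA : m * ((m - n) * (m - 81 * n)) = e ^ 2 := by rw [← he]; ring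
  obtain ⟨p, hp⟩ := class81 hm heA (gcd_dvd_81 hcop)
  -- m - n = dl q^2
  have heB : (m - n) * (m * (m - 81 * n)) = e ^ 2 := by rw [← he]; ring
  obtain ⟨q, hq⟩ := class80 hB heB (gcd_dvd_80 hcop)
  have hp0 : p ≠ 0 := by
    rintro rfl
    rcases hp with hp | hp <;> simp at hp <;> omega
  have hq0 : q ≠ 0 := by
    rintro rfl
    rcases hq with hq | hq | hq | hq <;> simp at hq <;> omega
  -- generic finishing step
  have finish : ∀ d1 dl : ℤ, 0 < d1 → 0 < dl → m = d1 * p ^ 2 → m - n = dl * q ^ 2 →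
      ∃ r : ℤ, r ≠ 0 ∧ d1 * dl * (m - 81 * n) = r ^ 2 := by
    intro d1 dl hd1 hdl h1 h2
    have hpq : p * q ≠ 0 := mul_ne_zero hp0 hq0
    have h3 : (p * q) ^ 2 * (d1 * dl * (m - 81 * n)) = e ^ 2 := by
      rw [← he]
      have e1 : m * (m - n) * (m - 81 * n) = (d1 * p ^ 2) * (dl * q ^ 2) * (m - 81 * n) := by
        rw [← h1, ← h2]
      rw [e1]; ring
    obtain ⟨r, hr⟩ := sq_cancel hpq h3
    refine ⟨r, ?_, hr⟩
    rintro rfl
    have : 0 < d1 * dl * (m - 81 * n) := by positivity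
    rw [hr] at this
    simp at this
  rcases hp with hp | hp
  · rcases hq with hq | hq | hq | hq
    · obtain ⟨r, hr0, hr⟩ := finish 1 1 one_pos one_pos (by rw [hp]; ring) (by rw [hq]; ring)
      exact ⟨1, 1, p, c, q, r, Or.inl rfl, Or.inl rfl, hp0, hc0, hq0, hr0, by rw [hp]; ring, hc,
        by rw [hq]; ring, hr⟩
    · obtain ⟨r, hr0, hr⟩ := finish 1 2 one_pos two_pos (by rw [hp]; ring) hq
      exact ⟨1, 2, p, c, q, r, Or.inl rfl, Or.inr (Or.inl rfl), hp0, hc0, hq0, hr0,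
        by rw [hp]; ring, hc, hq, hr⟩
    · obtain ⟨r, hr0, hr⟩ := finish 1 5 one_pos (by norm_num) (by rw [hp]; ring) hq
      exact ⟨1, 5, p, c, q, r, Or.inl rfl, Or.inr (Or.inr (Or.inl rfl)), hp0, hc0, hq0, hr0,
        by rw [hp]; ring, hc, hq, hr⟩
    · obtain ⟨r, hr0, hr⟩ := finish 1 10 one_pos (by norm_num) (by rw [hp]; ring) hq
      exact ⟨1, 10, p, c, q, r, Or.inl rfl, Or.inr (Or.inr (Or.inr rfl)), hp0, hc0, hq0, hr0,
        by rw [hp]; ring, hc, hq, hr⟩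
  · rcases hq with hq | hq | hq | hq
    · obtain ⟨r, hr0, hr⟩ := finish 3 1 (by norm_num) one_pos hp (by rw [hq]; ring)
      exact ⟨3, 1, p, c, q, r, Or.inr rfl, Or.inl rfl, hp0, hc0, hq0, hr0, hp, hc,
        by rw [hq]; ring, hr⟩
    · obtain ⟨r, hr0, hr⟩ := finish 3 2 (by norm_num) two_pos hp hq
      exact ⟨3, 2, p, c, q, r, Or.inr rfl, Or.inr (Or.inl rfl), hp0, hc0, hq0, hr0,
        hp, hc, hq, hr⟩
    · obtain ⟨r, hr0, hr⟩ := finish 3 5 (by norm_num) (by norm_num) hp hq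
      exact ⟨3, 5, p, c, q, r, Or.inr rfl, Or.inr (Or.inr (Or.inl rfl)), hp0, hc0, hq0, hr0,
        hp, hc, hq, hr⟩
    · obtain ⟨r, hr0, hr⟩ := finish 3 10 (by norm_num) (by norm_num) hp hq
      exact ⟨3, 10, p, c, q, r, Or.inr rfl, Or.inr (Or.inr (Or.inr rfl)), hp0, hc0, hq0, hr0,
        hp, hc, hq, hr⟩

/-- Output of the 2-descent: a solution of the system `p^2 - c^2 = q^2`, `p^2 - 81 c^2 = r^2`
of controlled size. -/
lemma classify {m n k : ℤ} (hn : 0 < n) (hmn : 81 * n < m) (hcop : IsCoprime m n)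
    (hk : n * m * (m - n) * (m - 81 * n) = k ^ 2) :
    ∃ p c q r : ℤ, 0 < p ∧ c ≠ 0 ∧ r ≠ 0 ∧ p ^ 2 - c ^ 2 = q ^ 2 ∧
      p ^ 2 - 81 * c ^ 2 = r ^ 2 ∧ 2 * p < m := by
  obtain ⟨d1, dl, p, c, q, r, hd1, hdl, hp0, hc0, hq0, hr0, hm, hnc, hB, hr⟩ :=
    normal_form hn hmn hcop hk
  have hmpos : 0 < m := by linarith
  have hm81 : 81 < m := by linarith
  rcases hd1 with rfl | rfl
  · -- d1 = 1
    rcases hdl with rfl | rfl | rfl | rfl
    · -- (1,1)
      have h1 : p ^ 2 - c ^ 2 = q ^ 2 := by rw [← hnc]; linarith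
      have h2 : p ^ 2 - 81 * c ^ 2 = r ^ 2 := by rw [← hnc]; linarith
      refine ⟨|p|, c, q, r, abs_pos.mpr hp0, hc0, hr0, by rw [sq_abs]; exact h1,
        by rw [sq_abs]; exact h2, ?_⟩
      have hp2 : |p| ^ 2 = m := by rw [sq_abs]; linarith
      have hpa : 0 ≤ |p| := abs_nonneg p
      nlinarith
    · -- (1,2)
      exfalso
      have h1 : p ^ 2 - c ^ 2 = 2 * q ^ 2 := by rw [← hnc]; linarith
      have h2 : 2 * (p ^ 2 - 81 * c ^ 2) = r ^ 2 := by rw [← hnc]; linarith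
      obtain ⟨hp2, hc2⟩ := excl_1_2 h1 h2
      have hm2 : (2 : ℤ) ∣ m := by rw [hm]; exact Dvd.dvd.mul_left (Dvd.dvd.pow hp2 two_ne_zero) _
      have hn2 : (2 : ℤ) ∣ n := by rw [hnc]; exact Dvd.dvd.pow hc2 two_ne_zero
      exact not_coprime_of_dvd hcop hm2 hn2 (by norm_num)
    · -- (1,5)
      have h1 : p ^ 2 - c ^ 2 = 5 * q ^ 2 := by rw [← hnc]; linarith
      have h2 : 5 * (p ^ 2 - 81 * c ^ 2) = r ^ 2 := by rw [← hnc]; linarith
      have h5 : Prime (5 : ℤ) := Int.prime_iff_natAbs_prime.mpr (by norm_num)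
      have h5r : (5 : ℤ) ∣ r :=
        h5.dvd_of_dvd_pow (n := 2) ⟨p ^ 2 - 81 * c ^ 2, by rw [← h2]⟩
      obtain ⟨r1, rfl⟩ := h5r
      have h3 : p ^ 2 - 81 * c ^ 2 = 5 * r1 ^ 2 := by
        have : 5 * (p ^ 2 - 81 * c ^ 2) = 5 * (5 * r1 ^ 2) := by rw [h2]; ring
        linarith
      have hr10 : r1 ≠ 0 := by
        rintro rfl
        simp at hr0
      refine ⟨9 * |q|, r1, 4 * p, 36 * c, by positivity, hr10, by positivity, ?_, ?_, ?_⟩
      · have : (9 * |q|) ^ 2 = 81 * q ^ 2 := by rw [mul_pow, sq_abs]; norm_num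
        rw [this]; linarith
      · have : (9 * |q|) ^ 2 = 81 * q ^ 2 := by rw [mul_pow, sq_abs]; norm_num
        rw [this]; linarith
      · -- 18 |q| < m
        have hq2 : 5 * |q| ^ 2 < m := by rw [sq_abs]; linarith
        have hqa : 0 ≤ |q| := abs_nonneg q
        nlinarith
    · -- (1,10)
      exfalso
      have h1 : p ^ 2 - c ^ 2 = 10 * q ^ 2 := by rw [← hnc]; linarith
      have h2 : 10 * (p ^ 2 - 81 * c ^ 2) = r ^ 2 := by rw [← hnc]; linarith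
      obtain ⟨hp2, hc2⟩ := excl_1_10 h1 h2
      have hm2 : (2 : ℤ) ∣ m := by rw [hm]; exact Dvd.dvd.mul_left (Dvd.dvd.pow hp2 two_ne_zero) _
      have hn2 : (2 : ℤ) ∣ n := by rw [hnc]; exact Dvd.dvd.pow hc2 two_ne_zero
      exact not_coprime_of_dvd hcop hm2 hn2 (by norm_num)
  · -- d1 = 3
    exfalso
    rcases hdl with rfl | rfl | rfl | rfl
    · -- (3,1)
      have h1 : 3 * p ^ 2 - c ^ 2 = q ^ 2 := by rw [← hnc]; linarith
      have hc3 := excl_3_1 h1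
      have hm3 : (3 : ℤ) ∣ m := by rw [hm]; exact Dvd.intro _ rfl
      have hn3 : (3 : ℤ) ∣ n := by rw [hnc]; exact Dvd.dvd.pow hc3 two_ne_zero
      exact not_coprime_of_dvd hcop hm3 hn3 (by norm_num)
    · -- (3,2)
      have h1 : 3 * p ^ 2 - c ^ 2 = 2 * q ^ 2 := by rw [← hnc]; linarith
      have h2 : 3 * 2 * (3 * p ^ 2 - 81 * c ^ 2) = r ^ 2 := by rw [← hnc, ← hm]; exact hr
      obtain ⟨hp5, hc5⟩ := excl_3_2 h1 h2
      have hm5 : (5 : ℤ) ∣ m := by rw [hm]; exact Dvd.dvd.mul_left (Dvd.dvd.pow hp5 two_ne_zero) _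
      have hn5 : (5 : ℤ) ∣ n := by rw [hnc]; exact Dvd.dvd.pow hc5 two_ne_zero
      exact not_coprime_of_dvd hcop hm5 hn5 (by norm_num)
    · -- (3,5)
      have h1 : 3 * p ^ 2 - c ^ 2 = 5 * q ^ 2 := by rw [← hnc]; linarith
      obtain ⟨hp5, hc5⟩ := excl_3_5 h1
      have hm5 : (5 : ℤ) ∣ m := by rw [hm]; exact Dvd.dvd.mul_left (Dvd.dvd.pow hp5 two_ne_zero) _
      have hn5 : (5 : ℤ) ∣ n := by rw [hnc]; exact Dvd.dvd.pow hc5 two_ne_zero
      exact not_coprime_of_dvd hcop hm5 hn5 (by norm_num)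
    · -- (3,10)
      have h1 : 3 * p ^ 2 - c ^ 2 = 10 * q ^ 2 := by rw [← hnc]; linarith
      have hc3 := excl_3_10 h1
      have hm3 : (3 : ℤ) ∣ m := by rw [hm]; exact Dvd.intro _ rfl
      have hn3 : (3 : ℤ) ∣ n := by rw [hnc]; exact Dvd.dvd.pow hc3 two_ne_zero
      exact not_coprime_of_dvd hcop hm3 hn3 (by norm_num)

end Descent

end Fermat.Agent.S51
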