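import Fermat.Agent.S51.DescentClassify

set_option autoImplicit false

namespace Fermat.Agent.S51

namespace Descent

/-- A (not necessarily reduced) fraction `m / n > 81` which is the `X`-coordinate of a rational
point with `Y ≠ 0` on `Y^2 = X (X - 1) (X - 81)`. -/
def Sol (m n : ℤ) : Prop :=
  0 < n ∧ 81 * n < m ∧ ∃ k : ℤ, n * m * (m - n) * (m - 81 * n) = k ^ 2

lemma halve_pos {p c q r : ℤ} (hp : 0 < p) (hc : c ≠ 0) (hq : 0 < q) (hr : 0 < r)
    (h1 : p ^ 2 - c ^ 2 = q ^ 2) (h2 : p ^ 2 - 81 * c ^ 2 = r ^ 2) :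
    ∃ m2 n2 : ℤ, Sol m2 n2 ∧ m2 < 2 * p := by
  have hc2 : 0 < c ^ 2 := by positivity
  have hqp : q < p := by nlinarith
  have hrp : r < p := by nlinarith
  have hid : ((p + r) - 81 * (p - q)) * (p + q) = (p + r) * (q + r) := by
    linear_combination h2 - 81 * h1
  have hD : 0 < (p + r) - 81 * (p - q) := by
    by_contra hneg
    have hneg := not_lt.mp hneg
    have h3 : ((p + r) - 81 * (p - q)) * (p + q) ≤ 0 :=
      mul_nonpos_of_nonpos_of_nonneg hneg (by linarith)
    have h4 : 0 < (p + r) * (q + r) := by positivity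
    linarith
  refine ⟨p + r, p - q, ⟨by linarith, by linarith, ?_⟩, by linarith⟩
  have hK : c ^ 2 * ((p - q) * (p + r) * ((p + r) - (p - q)) * ((p + r) - 81 * (p - q))) =
      ((p - q) * (p + r) * (q + r)) ^ 2 := by
    linear_combination
      (-((p - q) * (p + r) * ((p + r) - (p - q)) * ((p + r) - 81 * (p - q)))
        - 81 * ((p - q) ^ 2 * (p + r) * (q + r))) * h1
      + ((p - q) ^ 2 * (p + r) * (q + r)) * h2
  obtain ⟨k, hk⟩ := sq_cancel hc hK
  exact ⟨k, hk⟩

lemma halve {p c q r : ℤ} (hp : 0 < p) (hc : c ≠ 0) (hr : r ≠ 0)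
    (h1 : p ^ 2 - c ^ 2 = q ^ 2) (h2 : p ^ 2 - 81 * c ^ 2 = r ^ 2) :
    ∃ m2 n2 : ℤ, Sol m2 n2 ∧ m2 < 2 * p := by
  have hc2 : 0 < c ^ 2 := by positivity
  have hq : q ≠ 0 := by
    rintro rfl
    have : 0 ≤ r ^ 2 := sq_nonneg r
    nlinarith
  exact halve_pos hp hc (abs_pos.mpr hq) (abs_pos.mpr hr) (by rw [sq_abs]; exact h1)
    (by rw [sq_abs]; exact h2)

theorem no_sol : ∀ (N : ℕ) (m n : ℤ), m.toNat ≤ N → ¬ Sol m n := by
  intro N
  induction N using Nat.strong_induction_on with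
  | _ N ih =>
    intro m n hmN hsol
    obtain ⟨hn, hmn, k, hk⟩ := hsol
    have hg : 0 < Int.gcd m n := Int.gcd_pos_of_ne_zero_right m hn.ne'
    obtain ⟨m', n', hcop, hm', hn'⟩ := Int.exists_gcd_one hg
    obtain ⟨g, hgdef⟩ : ∃ g : ℤ, g = (Int.gcd m n : ℤ) := ⟨_, rfl⟩
    rw [← hgdef] at hm' hn'
    have hgpos : 0 < g := by rw [hgdef]; exact_mod_cast hg
    have hn'pos : 0 < n' := by
      by_contra h
      have h := not_lt.mp h
      have : n' * g ≤ 0 := mul_nonpos_of_nonpos_of_nonneg h hgpos.le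
      linarith
    have hmn' : 81 * n' < m' := by
      by_contra h
      have h := not_lt.mp h
      have : m' * g ≤ 81 * n' * g := mul_le_mul_of_nonneg_right h hgpos.le
      nlinarith
    have hm'pos : 0 < m' := by linarith
    have hm'le : m' ≤ m := by
      rw [hm']
      nlinarith
    have hcop' : IsCoprime m' n' := Int.isCoprime_iff_gcd_eq_one.mpr hcop
    have hk' : (g ^ 2) ^ 2 * (n' * m' * (m' - n') * (m' - 81 * n')) = k ^ 2 := by
      rw [← hk, hm', hn']; ring
    obtain ⟨k', hk''⟩ := sq_cancel (pow_ne_zero 2 hgpos.ne') hk'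
    obtain ⟨p, c, q, r, hp, hc, hr, h1, h2, hpm⟩ := classify hn'pos hmn' hcop' hk''
    obtain ⟨m2, n2, hsol2, hm2⟩ := halve hp hc hr h1 h2
    have hlt : m2 < m := by linarith
    have hmpos : 0 < m := by linarith
    have hlt' : m2.toNat < N := by
      have : m2.toNat < m.toNat := by
        rcases le_or_gt m2 0 with h0 | h0
        · rw [Int.toNat_of_nonpos h0]
          exact (Int.pos_iff_toNat_pos.mp hmpos)
        · exact (Int.toNat_lt_toNat hmpos).mpr hlt
      omega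
    exact ih m2.toNat hlt' m2 n2 le_rfl hsol2

end Descent

end Fermat.Agent.S51
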