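import Mathlib

set_option autoImplicit false
set_option linter.unusedSectionVars false

namespace Fermat.Agent.S51

open WeierstrassCurve WeierstrassCurve.Affine

variable {F : Type*} [Field F] [DecidableEq F] (W : WeierstrassCurve.Affine F)

def f2 (x : F) : F := 4 * x ^ 3 + W.b₂ * x ^ 2 + 2 * W.b₄ * x + W.b₆

def phi2 (x : F) : F := x ^ 4 - W.b₄ * x ^ 2 - 2 * W.b₆ * x - W.b₈

def psi3 (x : F) : F := 3 * x ^ 4 + W.b₂ * x ^ 3 + 3 * W.b₄ * x ^ 2 + 3 * W.b₆ * x + W.b₈

lemma phi2_eq (x : F) : phi2 W x = x * f2 W x - psi3 W x := by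
  unfold phi2 f2 psi3; ring

variable {W}

lemma f2_eq_sq {x y : F} (h : W.Equation x y) : f2 W x = (y - W.negY x y) ^ 2 := by
  rw [Affine.equation_iff] at h
  unfold f2 Affine.negY
  simp only [WeierstrassCurve.b₂, WeierstrassCurve.b₄, WeierstrassCurve.b₆]
  linear_combination (-4 : F) * h

lemma dup_x {x y : F} (h : W.Equation x y) (hy : y ≠ W.negY x y) :
    W.addX x x (W.slope x x y y) * f2 W x = phi2 W x := by
  have hne : y - W.negY x y ≠ 0 := sub_ne_zero.mpr hy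
  rw [Affine.slope_of_Y_ne rfl hy, f2_eq_sq h]
  have hd : y - W.negY x y = 2 * y + W.a₁ * x + W.a₃ := by unfold Affine.negY; ring
  set d := y - W.negY x y with hd0
  set n := 3 * x ^ 2 + 2 * W.a₂ * x + W.a₄ - W.a₁ * y with hn
  have h1 : W.addX x x (n / d) * d ^ 2 = n ^ 2 + W.a₁ * n * d - (W.a₂ + 2 * x) * d ^ 2 := by
    simp only [Affine.addX]
    field_simp
    ring
  rw [h1, hd, hn]
  rw [Affine.equation_iff] at h
  unfold phi2
  simp only [WeierstrassCurve.b₄, WeierstrassCurve.b₆, WeierstrassCurve.b₈]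
  linear_combination (-(W.a₁ ^ 2 + 4 * W.a₂ + 8 * x)) * h

end Fermat.Agent.S51
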