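import Mathlib

set_option autoImplicit false

namespace Fermat.Agent.S51

open WeierstrassCurve

variable {F : Type*} [Field F] (W : WeierstrassCurve.Affine F)

/-- Numerator of the `x`-coordinate duplication map. -/
def dupA (x : F) : F := x ^ 4 - W.b₄ * x ^ 2 - 2 * W.b₆ * x - W.b₈

/-- Denominator of the `x`-coordinate duplication map (`= ψ₂²`). -/
def dupB (x : F) : F := 4 * x ^ 3 + W.b₂ * x ^ 2 + 2 * W.b₄ * x + W.b₆

/-- The 3-division polynomial as a function. -/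
def psi3 (x : F) : F := 3 * x ^ 4 + W.b₂ * x ^ 3 + 3 * W.b₄ * x ^ 2 + 3 * W.b₆ * x + W.b₈

/-- The reduced 4-division polynomial as a function. -/
def psi4r (x : F) : F :=
  2 * x ^ 6 + W.b₂ * x ^ 5 + 5 * W.b₄ * x ^ 4 + 10 * W.b₆ * x ^ 3 + 10 * W.b₈ * x ^ 2 +
    (W.b₂ * W.b₈ - W.b₄ * W.b₆) * x + (W.b₄ * W.b₈ - W.b₆ ^ 2)

/-- The 5-division polynomial as a function. -/
def psi5 (x : F) : F := psi4r W x * dupB W x ^ 2 - psi3 W x ^ 3

theorem dupA_sub_mul_dupB (x : F) : dupA W x - x * dupB W x = -psi3 W x := by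
  simp only [dupA, dupB, psi3]
  ring

theorem eval_Ψ₂Sq (x : F) : (WeierstrassCurve.Ψ₂Sq W).eval x = dupB W x := by
  simp [WeierstrassCurve.Ψ₂Sq, dupB]

theorem eval_Ψ₃ (x : F) : (WeierstrassCurve.Ψ₃ W).eval x = psi3 W x := by
  simp [WeierstrassCurve.Ψ₃, psi3]

theorem eval_preΨ₄ (x : F) : (WeierstrassCurve.preΨ₄ W).eval x = psi4r W x := by
  simp [WeierstrassCurve.preΨ₄, psi4r]

theorem eval_preΨ'_five (x : F) : (WeierstrassCurve.preΨ' W 5).eval x = psi5 W x := by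
  have h := WeierstrassCurve.preΨ'_odd W 0
  simp only [Nat.zero_add, Nat.reduceAdd, Nat.reduceMul] at h
  have h5 : WeierstrassCurve.preΨ' W 5 =
      WeierstrassCurve.preΨ₄ W * WeierstrassCurve.Ψ₂Sq W ^ 2 - WeierstrassCurve.Ψ₃ W ^ 3 := by
    rw [h]
    simp
  rw [h5]
  simp [eval_Ψ₂Sq, eval_Ψ₃, eval_preΨ₄, psi5]

/-- `ψ₂² = B` on the curve. -/
theorem sq_sub_negY_eq_dupB {x y : F} (h : W.Equation x y) :
    (y - W.negY x y) ^ 2 = dupB W x := by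
  rw [Affine.equation_iff] at h
  simp only [Affine.negY, dupB, WeierstrassCurve.b₂, WeierstrassCurve.b₄, WeierstrassCurve.b₆]
  linear_combination 4 * h

/-- Duplication formula for the `x`-coordinate. -/
theorem addX_self_mul_dupB [DecidableEq F] {x y : F} (h : W.Equation x y)
    (hy : y ≠ W.negY x y) :
    W.addX x x (W.slope x x y y) * dupB W x = dupA W x := by
  have hd : y - W.negY x y ≠ 0 := sub_ne_zero.mpr hy
  rw [← sq_sub_negY_eq_dupB W h, Affine.slope_of_Y_ne rfl hy]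
  rw [Affine.equation_iff] at h
  simp only [Affine.addX, dupA, WeierstrassCurve.b₄, WeierstrassCurve.b₆, WeierstrassCurve.b₈]
  field_simp
  simp only [Affine.negY]
  linear_combination (-(W.a₁ ^ 2 + 4 * W.a₂ + 8 * x)) * h

/-- `B(A/B) B³ = (ψ₄/ψ₂)²`. -/
theorem dupB_dup (x : F) :
    4 * dupA W x ^ 3 + W.b₂ * dupA W x ^ 2 * dupB W x + 2 * W.b₄ * dupA W x * dupB W x ^ 2 +
      W.b₆ * dupB W x ^ 3 = psi4r W x ^ 2 := by
  simp only [dupA, dupB, psi4r, WeierstrassCurve.b₂, WeierstrassCurve.b₄, WeierstrassCurve.b₆,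
    WeierstrassCurve.b₈]
  ring

/-- `ψ₃(A/B) B⁴ = ψ₃ (ψ₅ - (ψ₄/ψ₂)²)`. -/
theorem psi3_dup (x : F) :
    3 * dupA W x ^ 4 + W.b₂ * dupA W x ^ 3 * dupB W x + 3 * W.b₄ * dupA W x ^ 2 * dupB W x ^ 2 +
      3 * W.b₆ * dupA W x * dupB W x ^ 3 + W.b₈ * dupB W x ^ 4 =
      psi3 W x * (psi5 W x - psi4r W x ^ 2) := by
  simp only [dupA, dupB, psi3, psi4r, psi5, WeierstrassCurve.b₂, WeierstrassCurve.b₄,
    WeierstrassCurve.b₆, WeierstrassCurve.b₈]
  ring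

/-- A common zero of `A` and `B` forces `Δ = 0`. -/
theorem Δ_eq_zero_of_dupA_dupB [CharZero F] {x : F} (hA : dupA W x = 0) (hB : dupB W x = 0) : W.Δ = 0 := by
  have hrel := W.b_relation
  have h1 : (12 * x ^ 2 + 2 * W.b₂ * x + 2 * W.b₄) ^ 2 = 0 := by
    have : (12 * x ^ 2 + 2 * W.b₂ * x + 2 * W.b₄) ^ 2 =
        16 * dupA W x + (32 * x + 4 * W.b₂) * dupB W x := by
      simp only [dupA, dupB]
      linear_combination (4 : F) * hrel
    rw [this, hA, hB]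
    ring
  have h2 : 12 * x ^ 2 + 2 * W.b₂ * x + 2 * W.b₄ = 0 := by
    exact pow_eq_zero_iff (two_ne_zero) |>.mp h1
  have h3 : (8 : F) * W.Δ =
      (-12 * (W.b₂ ^ 2 - 24 * W.b₄) * x + (-2 * W.b₂ ^ 3 + 60 * W.b₂ * W.b₄ - 216 * W.b₆)) *
        dupB W x +
      (4 * (W.b₂ ^ 2 - 24 * W.b₄) * x ^ 2 + (W.b₂ ^ 3 - 28 * W.b₂ * W.b₄ + 72 * W.b₆) * x +
        (W.b₂ ^ 2 * W.b₄ + 6 * W.b₂ * W.b₆ - 32 * W.b₄ ^ 2)) *
        (12 * x ^ 2 + 2 * W.b₂ * x + 2 * W.b₄) := by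
    simp only [dupB, WeierstrassCurve.Δ]
    linear_combination (-2 * W.b₂ ^ 2) * hrel
  rw [hB, h2] at h3
  have h8 : (8 : F) ≠ 0 := by norm_num
  have : (8 : F) * W.Δ = 0 := by rw [h3]; ring
  exact (mul_eq_zero.mp this).resolve_left h8

end Fermat.Agent.S51
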