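import Fermat.Agent.S51.Torsion

set_option autoImplicit false
set_option linter.unusedSectionVars false

namespace Fermat.Agent.S51

open WeierstrassCurve WeierstrassCurve.Affine

variable {F : Type*} [Field F] [DecidableEq F] {W : WeierstrassCurve.Affine F}

/-- Relations between the `x`-coordinates of `P` and `2P` for a point of exact order 5. -/
theorem five_torsion_rel {P : W.Point} (hP : P ≠ 0) (h5 : 5 • P = 0) :
    xc P ≠ xc (2 • P) ∧ f2 W (xc P) ≠ 0 ∧ f2 W (xc (2 • P)) ≠ 0 ∧
      phi2 W (xc P) = xc (2 • P) * f2 W (xc P) ∧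
      phi2 W (xc (2 • P)) = xc P * f2 W (xc (2 • P)) := by
  have h2 : 2 • P ≠ 0 := by
    intro h2
    apply hP
    have : 5 • P = P + 2 • (2 • P) := by rw [smul_smul]; abel
    rw [this, h2, smul_zero, add_zero] at h5
    exact h5
  have h4' : 2 • (2 • P) = -P := by
    have : 5 • P = P + 2 • (2 • P) := by rw [smul_smul]; abel
    rw [this] at h5
    exact (neg_eq_of_add_eq_zero_right h5).symm
  have h4 : 2 • (2 • P) ≠ 0 := by
    rw [h4']
    exact neg_ne_zero.mpr hP
  obtain ⟨hf1, hd1⟩ := xc_two_nsmul hP h2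
  obtain ⟨hf2, hd2⟩ := xc_two_nsmul h2 h4
  rw [h4', xc_neg] at hd2
  refine ⟨?_, hf1, hf2, hd1.symm, hd2.symm⟩
  intro hx
  rcases eq_or_eq_neg_of_xc_eq hP h2 hx with h | h
  · apply hP
    have : 2 • P = P + P := two_nsmul P
    rw [this] at h
    exact (add_eq_left (a := P) (b := P)).mp h.symm |> fun t => t
  · apply hP
    have h3 : 3 • P = 0 := by
      have e : P + 2 • P = 0 := by rw [add_eq_zero_iff_eq_neg]; exact h
      have : 3 • P = P + 2 • P := by abel
      rw [this, e]
    have : P = 2 • (3 • P) - 5 • P := by rw [smul_smul]; abel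
    rw [this, h3, h5]; simp

end Fermat.Agent.S51
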