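import Mathlib

set_option autoImplicit false

namespace Fermat.Agent.S51

/-- A proper nonzero submodule of a `ZMod p`-module with fewer than `p ^ 3` elements is a line. -/
theorem exists_generator (p : ℕ) [Fact p.Prime] {V : Type*} [AddCommGroup V] [Module (ZMod p) V]
    [Finite V] (hcard : Nat.card V < p ^ 3) (N : Submodule (ZMod p) V) (h0 : N ≠ ⊥) (h1 : N ≠ ⊤) :
    ∃ P : V, P ≠ 0 ∧ P ∈ N ∧ ∀ Q ∈ N, ∃ k : ℕ, Q = k • P := by
  have hp : p.Prime := Fact.out
  have hV : Module.finrank (ZMod p) V ≤ 2 := by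
    have h := Module.natCard_eq_pow_finrank (K := ZMod p) (V := V)
    rw [Nat.card_zmod] at h
    rw [h] at hcard
    have := (Nat.pow_lt_pow_iff_right hp.one_lt).mp hcard
    omega
  have hN2 : Module.finrank (ZMod p) N < Module.finrank (ZMod p) V := Submodule.finrank_lt h1
  have hN0 : 0 < Module.finrank (ZMod p) N := by
    rw [Module.finrank_pos_iff]
    exact (Submodule.nontrivial_iff_ne_bot).mpr h0
  have hN1 : Module.finrank (ZMod p) N = 1 := by omega
  obtain ⟨v, hv0, hv⟩ := finrank_eq_one_iff'.mp hN1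
  refine ⟨v.1, fun h => hv0 (Subtype.ext h), v.2, fun Q hQ => ?_⟩
  obtain ⟨c, hc⟩ := hv ⟨Q, hQ⟩
  refine ⟨c.val, ?_⟩
  have h2 : c • (v : V) = Q := by
    have := congrArg Subtype.val hc
    simpa using this
  rw [← h2]
  conv_lhs => rw [← ZMod.natCast_zmod_val c]
  rw [Nat.cast_smul_eq_nsmul]

end Fermat.Agent.S51
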