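import Fermat.Agent.S51.FiveRel
import Fermat.Agent.S51.LinAlg
import Fermat.Prelude.Def_FLTPrelim_GaloisRep

set_option autoImplicit false
set_option linter.unusedSectionVars false

namespace Fermat.Agent.S51

open WeierstrassCurve WeierstrassCurve.Affine WeierstrassCurve.Affine.Point

abbrev Kbar := AlgebraicClosure ℚ

variable (E : WeierstrassCurve ℚ)

lemma xc_smul (σ : Kbar ≃ₐ[ℚ] Kbar) (P : (E⁄Kbar).Point) : xc (σ • P) = σ (xc P) := by
  rw [algEquiv_smul_def]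
  cases P with
  | zero => 
    show xc (Point.map σ.toAlgHom (0 : (E⁄Kbar).Point)) = σ 0
    rw [Point.map_zero]
    show (0 : Kbar) = σ 0
    simp
  | some x y h => 
    rw [Point.map_some]
    rfl

lemma smul_ne_zero' (σ : Kbar ≃ₐ[ℚ] Kbar) {P : (E⁄Kbar).Point} (hP : P ≠ 0) : σ • P ≠ 0 := by
  intro h
  apply hP
  have h1 : σ⁻¹ • (σ • P) = σ⁻¹ • (0 : (E⁄Kbar).Point) := by rw [h]
  rw [smul_smul, inv_mul_cancel, one_smul] at h1
  exact h1

end Fermat.Agent.S51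

namespace Fermat.Agent.S51

open WeierstrassCurve WeierstrassCurve.Affine WeierstrassCurve.Affine.Point

variable (E : WeierstrassCurve ℚ)

theorem exists_stable_point (p : ℕ) [Fact p.Prime]
    [Finite (Submodule.torsionBy ℤ (E⁄Kbar).Point p)]
    (hcard : Nat.card (Submodule.torsionBy ℤ (E⁄Kbar).Point p) < p ^ 3)
    (hnt : Nontrivial (Submodule.torsionBy ℤ (E⁄Kbar).Point p))
    (hred : ¬ GaloisRepIsIrreducible (K := Kbar) ℚ E p) :
    ∃ P : (E⁄Kbar).Point, P ≠ 0 ∧ p • P = 0 ∧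
      ∀ σ : Kbar ≃ₐ[ℚ] Kbar, ∃ k : ℕ, σ • P = k • P := by
  unfold GaloisRepIsIrreducible at hred
  push Not at hred
  obtain ⟨N, hN, h0, h1⟩ := hred hnt
  obtain ⟨P, hP0, hPN, hgen⟩ := exists_generator p hcard N h0 h1
  refine ⟨P.1, fun h => hP0 (Subtype.ext h), ?_, fun σ => ?_⟩
  · have := P.2
    rw [Submodule.mem_torsionBy_iff] at this
    rw [← Nat.cast_smul_eq_nsmul ℤ]
    exact this
  · obtain ⟨k, hk⟩ := hgen (σ • P) (hN σ P hPN)
    refine ⟨k, ?_⟩
    have := congrArg Subtype.val hk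
    have e : ((σ • P : Submodule.torsionBy ℤ (E⁄Kbar).Point p) : (E⁄Kbar).Point) = σ • (P : (E⁄Kbar).Point) := rfl
    rw [← e]
    simpa using this

end Fermat.Agent.S51

namespace Fermat.Agent.S51

open WeierstrassCurve WeierstrassCurve.Affine WeierstrassCurve.Affine.Point

variable (E : WeierstrassCurve ℚ)

lemma smul_add' (σ : Kbar ≃ₐ[ℚ] Kbar) (P Q : (E⁄Kbar).Point) : σ • (P + Q) = σ • P + σ • Q := by
  rw [algEquiv_smul_def, algEquiv_smul_def, algEquiv_smul_def, map_add]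

lemma smul_two_nsmul (σ : Kbar ≃ₐ[ℚ] Kbar) (P : (E⁄Kbar).Point) : σ • (2 • P) = 2 • (σ • P) := by
  rw [two_nsmul, two_nsmul, smul_add']

theorem five_sym_fixed {P : (E⁄Kbar).Point} (hP : P ≠ 0) (h5 : (5 : ℕ) • P = 0)
    (hst : ∀ σ : Kbar ≃ₐ[ℚ] Kbar, ∃ k : ℕ, σ • P = k • P) (σ : Kbar ≃ₐ[ℚ] Kbar) :
    σ (xc P + xc ((2 : ℕ) • P)) = xc P + xc ((2 : ℕ) • P) ∧
      σ (xc P * xc ((2 : ℕ) • P)) = xc P * xc ((2 : ℕ) • P) := by
  obtain ⟨k, hk⟩ := hst σ
  have hmod : k • P = (k % 5) • P := by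
    conv_lhs => rw [← Nat.div_add_mod k 5]
    rw [add_nsmul, mul_nsmul, h5, nsmul_zero, zero_add]
  rw [hmod] at hk
  have hlt : k % 5 < 5 := Nat.mod_lt _ (by norm_num)
  have h1 : σ (xc P) = xc (σ • P) := (xc_smul E σ P).symm
  have h2 : σ (xc ((2 : ℕ) • P)) = xc ((2 : ℕ) • (σ • P)) := by
    rw [← smul_two_nsmul, xc_smul]
  have key : (σ (xc P) = xc P ∧ σ (xc ((2 : ℕ) • P)) = xc ((2 : ℕ) • P)) ∨
      (σ (xc P) = xc ((2 : ℕ) • P) ∧ σ (xc ((2 : ℕ) • P)) = xc P) := by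
    rw [h1, h2, hk]
    generalize k % 5 = r at hlt hk
    interval_cases r
    · exfalso
      rw [zero_nsmul] at hk
      exact smul_ne_zero' E σ hP hk
    · left; rw [one_nsmul]; exact ⟨rfl, rfl⟩
    · right
      refine ⟨rfl, ?_⟩
      have : (2 : ℕ) • ((2 : ℕ) • P) = -P := by
        have e : (5 : ℕ) • P = P + (2 : ℕ) • ((2 : ℕ) • P) := by rw [smul_smul]; abel
        rw [e] at h5
        exact (neg_eq_of_add_eq_zero_right h5).symm
      rw [this, xc_neg]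
    · right
      have e3 : (3 : ℕ) • P = -((2 : ℕ) • P) := by
        have e : (5 : ℕ) • P = (2 : ℕ) • P + (3 : ℕ) • P := by abel
        rw [e] at h5
        exact (neg_eq_of_add_eq_zero_right h5).symm
      refine ⟨by rw [e3, xc_neg], ?_⟩
      have : (2 : ℕ) • ((3 : ℕ) • P) = P := by
        have e : (2 : ℕ) • ((3 : ℕ) • P) = (5 : ℕ) • P + P := by rw [smul_smul]; abel
        rw [e, h5, zero_add]
      rw [this]
    · left
      have e4 : (4 : ℕ) • P = -P := by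
        have e : (5 : ℕ) • P = P + (4 : ℕ) • P := by abel
        rw [e] at h5
        exact (neg_eq_of_add_eq_zero_right h5).symm
      refine ⟨by rw [e4, xc_neg], ?_⟩
      rw [e4, neg_nsmul, xc_neg]
  rcases key with ⟨a, b⟩ | ⟨a, b⟩
  · rw [map_add, map_mul, a, b]; exact ⟨rfl, rfl⟩
  · rw [map_add, map_mul, a, b]; exact ⟨add_comm _ _, mul_comm _ _⟩

end Fermat.Agent.S51
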