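import Mathlib
import Fermat.Agent.S51.DupFormula

set_option autoImplicit false

namespace Fermat.Agent.S51

open WeierstrassCurve WeierstrassCurve.Affine

variable {F : Type*} [Field F] [DecidableEq F] (W : WeierstrassCurve.Affine F)

omit [DecidableEq F] in
/-- Over an algebraically closed field of characteristic zero every `x` is the abscissa of a point
on the curve. -/
theorem exists_equation [IsAlgClosed F] [CharZero F] (x : F) : ∃ y : F, W.Equation x y := by
  obtain ⟨s, hs⟩ := IsAlgClosed.exists_pow_nat_eq (dupB W x) (n := 2) (by norm_num)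
  refine ⟨(s - W.a₁ * x - W.a₃) / 2, ?_⟩
  rw [Affine.equation_iff]
  simp only [dupB, WeierstrassCurve.b₂, WeierstrassCurve.b₄, WeierstrassCurve.b₆] at hs
  field_simp
  linear_combination hs

variable {W}

/-- If `ψ₃(x) = 0` then `2P = -P`. -/
theorem add_self_eq_neg_of_psi3 [CharZero F] (hΔ : W.Δ ≠ 0) {x y : F} (h : W.Nonsingular x y)
    (h3 : psi3 W x = 0) : Point.some x y h + Point.some x y h = -Point.some x y h := by
  have hAB : dupA W x = x * dupB W x := by
    have := dupA_sub_mul_dupB W x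
    rw [h3, neg_zero, sub_eq_zero] at this
    exact this
  by_cases hy : y = W.negY x y
  · exfalso
    have hB : dupB W x = 0 := by
      rw [← sq_sub_negY_eq_dupB W h.1, sub_eq_zero.mpr hy]
      ring
    have hA : dupA W x = 0 := by rw [hAB, hB, mul_zero]
    exact hΔ (Δ_eq_zero_of_dupA_dupB W hA hB)
  · have hB : dupB W x ≠ 0 := by
      rw [← sq_sub_negY_eq_dupB W h.1]
      exact pow_ne_zero 2 (sub_ne_zero.mpr hy)
    rw [Point.add_self_of_Y_ne hy]
    have hX : W.addX x x (W.slope x x y y) = x := by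
      have := addX_self_mul_dupB W h.1 hy
      rw [hAB] at this
      exact mul_right_cancel₀ hB this
    rcases Point.X_eq_iff.mp hX with h1 | h1
    · exfalso
      have h2 : Point.some x y h + Point.some x y h = Point.some x y h := by
        rw [Point.add_self_of_Y_ne hy]; exact h1
      have h3 : Point.some x y h = 0 := by
        have := congrArg (fun Q => Q - Point.some x y h) h2
        simp at this
      exact Point.some_ne_zero h h3
    · exact h1

/-- A nonzero point of order three exists. -/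
theorem exists_three_torsion [IsAlgClosed F] [CharZero F] (hΔ : W.Δ ≠ 0) :
    ∃ P : W.Point, P ≠ 0 ∧ (3 : ℤ) • P = 0 := by
  have h3 : (3 : F) ≠ 0 := by norm_num
  obtain ⟨x, hx⟩ := IsAlgClosed.exists_root (WeierstrassCurve.Ψ₃ W)
    (by rw [Polynomial.degree_eq_natDegree (WeierstrassCurve.Ψ₃_ne_zero W h3),
      WeierstrassCurve.natDegree_Ψ₃ W h3]; norm_num)
  rw [Polynomial.IsRoot, eval_Ψ₃] at hx
  obtain ⟨y, hy⟩ := exists_equation W x
  have hns : W.Nonsingular x y := (W.equation_iff_nonsingular_of_Δ_ne_zero hΔ).mp hy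
  refine ⟨Point.some x y hns, Point.some_ne_zero hns, ?_⟩
  have := add_self_eq_neg_of_psi3 hΔ hns hx
  have h3' : (3 : ℤ) • Point.some x y hns =
      Point.some x y hns + Point.some x y hns + Point.some x y hns := by
    abel
  rw [h3', this]
  simp

/-- A nonzero point of order five exists. -/
theorem exists_five_torsion [IsAlgClosed F] [CharZero F] (hΔ : W.Δ ≠ 0) :
    ∃ P : W.Point, P ≠ 0 ∧ (5 : ℤ) • P = 0 := by
  have h5 : ((5 : ℕ) : F) ≠ 0 := by norm_num
  obtain ⟨x, hx⟩ := IsAlgClosed.exists_root (WeierstrassCurve.preΨ' W 5)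
    (by
      rw [Polynomial.degree_eq_natDegree (WeierstrassCurve.preΨ'_ne_zero W h5)]
      have := WeierstrassCurve.natDegree_preΨ'_pos W (n := 5) (by norm_num) h5
      exact_mod_cast this.ne')
  rw [Polynomial.IsRoot, eval_preΨ'_five] at hx
  obtain ⟨y, hy⟩ := exists_equation W x
  have hns : W.Nonsingular x y := (W.equation_iff_nonsingular_of_Δ_ne_zero hΔ).mp hy
  -- abbreviations
  set A := dupA W x with hA
  set B := dupB W x with hB
  have h5' : psi4r W x * B ^ 2 = psi3 W x ^ 3 := by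
    have := hx
    rw [psi5] at this
    exact sub_eq_zero.mp this
  have hAB : A - x * B = -psi3 W x := dupA_sub_mul_dupB W x
  -- (a) `B ≠ 0`
  have hB0 : B ≠ 0 := by
    intro hB0
    have h3 : psi3 W x = 0 := by
      have : psi3 W x ^ 3 = 0 := by rw [← h5', hB0]; ring
      exact pow_eq_zero_iff (by norm_num) |>.mp this
    have hA0 : A = 0 := by
      have := hAB
      rw [h3, hB0] at this
      simpa using this
    exact hΔ (Δ_eq_zero_of_dupA_dupB W hA0 hB0)
  -- (b) `ψ₃ ≠ 0`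
  have h30 : psi3 W x ≠ 0 := by
    intro h3
    have h4 : psi4r W x = 0 := by
      have : psi4r W x * B ^ 2 = 0 := by rw [h5', h3]; ring
      exact (mul_eq_zero.mp this).resolve_right (pow_ne_zero 2 hB0)
    have hAx : A = x * B := by
      have := hAB
      rw [h3, neg_zero, sub_eq_zero] at this
      exact this
    have := dupB_dup W x
    rw [← hA, ← hB, h4, hAx] at this
    have hB4 : B ^ 4 = 0 := by
      have e : 4 * (x * B) ^ 3 + W.b₂ * (x * B) ^ 2 * B + 2 * W.b₄ * (x * B) * B ^ 2 +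
          W.b₆ * B ^ 3 = B ^ 3 * dupB W x := by
        simp only [dupB]; ring
      rw [e, ← hB] at this
      calc B ^ 4 = B ^ 3 * B := by ring
        _ = 0 := by rw [this]; ring
    exact hB0 (pow_eq_zero_iff (by norm_num) |>.mp hB4)
  -- (c) `ψ₄/ψ₂ ≠ 0`
  have h40 : psi4r W x ≠ 0 := by
    intro h4
    have : psi3 W x ^ 3 = 0 := by rw [← h5', h4]; ring
    exact h30 (pow_eq_zero_iff (by norm_num) |>.mp this)
  -- (d) doubling `P`
  have hyne : y ≠ W.negY x y := by
    intro hyy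
    apply hB0
    rw [hB, ← sq_sub_negY_eq_dupB W hns.1, sub_eq_zero.mpr hyy]
    ring
  set X₂ := W.addX x x (W.slope x x y y) with hX₂
  set Y₂ := W.addY x x y (W.slope x x y y) with hY₂
  have hns₂ : W.Nonsingular X₂ Y₂ := nonsingular_add hns hns fun hxy => hyne hxy.right
  have h2P : Point.some x y hns + Point.some x y hns = Point.some X₂ Y₂ hns₂ :=
    Point.add_self_of_Y_ne hyne
  have hX₂B : X₂ * B = A := addX_self_mul_dupB W hns.1 hyne
  -- (e) `B(X₂) ≠ 0`
  have hBX₂ : dupB W X₂ * B ^ 3 = psi4r W x ^ 2 := by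
    have := dupB_dup W x
    rw [← hA, ← hB, ← hX₂B] at this
    rw [← this]
    simp only [dupB]; ring
  have hBX₂0 : dupB W X₂ ≠ 0 := by
    intro h0
    rw [h0, zero_mul] at hBX₂
    exact h40 (pow_eq_zero_iff (by norm_num) |>.mp hBX₂.symm)
  have hY₂ne : Y₂ ≠ W.negY X₂ Y₂ := by
    intro hyy
    apply hBX₂0
    rw [← sq_sub_negY_eq_dupB W hns₂.1, sub_eq_zero.mpr hyy]
    ring
  -- (f) doubling `2P`
  set X₄ := W.addX X₂ X₂ (W.slope X₂ X₂ Y₂ Y₂) with hX₄
  set Y₄ := W.addY X₂ X₂ Y₂ (W.slope X₂ X₂ Y₂ Y₂) with hY₄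
  have hns₄ : W.Nonsingular X₄ Y₄ := nonsingular_add hns₂ hns₂ fun hxy => hY₂ne hxy.right
  have h4P : Point.some X₂ Y₂ hns₂ + Point.some X₂ Y₂ hns₂ = Point.some X₄ Y₄ hns₄ :=
    Point.add_self_of_Y_ne hY₂ne
  have hX₄B : X₄ * dupB W X₂ = dupA W X₂ := addX_self_mul_dupB W hns₂.1 hY₂ne
  -- (g) `X₄ = x`
  have hpsi3X₂ : psi3 W X₂ * B ^ 4 = -(psi3 W x * psi4r W x ^ 2) := by
    have := psi3_dup W x
    rw [hx, zero_sub, ← hA, ← hB, ← hX₂B] at this
    have e : psi3 W X₂ * B ^ 4 = 3 * (X₂ * B) ^ 4 + W.b₂ * (X₂ * B) ^ 3 * B +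
        3 * W.b₄ * (X₂ * B) ^ 2 * B ^ 2 + 3 * W.b₆ * (X₂ * B) * B ^ 3 + W.b₈ * B ^ 4 := by
      simp only [psi3]; ring
    rw [e, this]; ring
  have hX₄x : X₄ = x := by
    have h1 : dupA W X₂ - X₂ * dupB W X₂ = -psi3 W X₂ := dupA_sub_mul_dupB W X₂
    have h2 : (X₂ - x) * B = -psi3 W x := by
      rw [sub_mul, hX₂B]; exact hAB
    -- `(X₄ - x) * B(X₂) * B^4 = 0`
    have h3 : (X₄ - x) * dupB W X₂ * B ^ 4 = 0 := by
      have e1 : (X₄ - x) * dupB W X₂ = (X₂ - x) * dupB W X₂ - psi3 W X₂ := by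
        rw [sub_mul, hX₄B]
        linear_combination h1
      rw [e1, sub_mul, hpsi3X₂]
      have e2 : (X₂ - x) * dupB W X₂ * B ^ 4 = ((X₂ - x) * B) * (dupB W X₂ * B ^ 3) := by ring
      rw [e2, h2, hBX₂]
      ring
    have h4 : X₄ - x = 0 := by
      rcases mul_eq_zero.mp h3 with h | h
      · rcases mul_eq_zero.mp h with h | h
        · exact h
        · exact absurd h hBX₂0
      · exact absurd (pow_eq_zero_iff (by norm_num) |>.mp h) hB0
    exact sub_eq_zero.mp h4
  -- conclude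
  refine ⟨Point.some x y hns, Point.some_ne_zero hns, ?_⟩
  set P := Point.some x y hns with hP
  have h4P' : (4 : ℤ) • P = Point.some X₄ Y₄ hns₄ := by
    have : (4 : ℤ) • P = (P + P) + (P + P) := by abel
    rw [this, h2P, h4P]
  rcases Point.X_eq_iff.mp hX₄x with h1 | h1
  · -- `4P = P`, so `3P = 0`, so `2P = -P`, so `X₂ = x`, contradiction
    exfalso
    have h3P : P + P = -P := by
      have e : (4 : ℤ) • P = P := by rw [h4P', h1]
      have : (4 : ℤ) • P - P - P = P - P - P := by rw [e]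
      have e2 : (4 : ℤ) • P - P - P = P + P := by abel
      rw [e2] at this
      rw [this]; abel
    rw [h2P, hP, Point.neg_some] at h3P
    have hXX : X₂ = x := by
      injection h3P
    apply h30
    have : A - x * B = 0 := by rw [← hX₂B, hXX]; ring
    rw [hAB] at this
    simpa using this
  · have : (5 : ℤ) • P = (4 : ℤ) • P + P := by abel
    rw [this, h4P', h1, hP]
    exact neg_add_cancel _

end Fermat.Agent.S51

namespace Fermat.Agent.S51

open WeierstrassCurve WeierstrassCurve.Affine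

theorem nontrivial_torsionBy_of_exists {M : Type*} [AddCommGroup M] (a : ℤ)
    (h : ∃ P : M, P ≠ 0 ∧ a • P = 0) : Nontrivial (Submodule.torsionBy ℤ M a) := by
  obtain ⟨P, hP0, hP⟩ := h
  refine ⟨⟨⟨P, ?_⟩, 0, ?_⟩⟩
  · rw [Submodule.mem_torsionBy_iff]; exact hP
  · intro h0
    exact hP0 (congrArg Subtype.val h0)

theorem baseChange_Δ_ne_zero (W₀ : WeierstrassCurve ℤ) (hΔ : W₀.Δ ≠ 0) :
    ((W₀.map (Int.castRingHom ℚ))⁄(AlgebraicClosure ℚ)).Δ ≠ 0 := by
  show ((W₀.map (Int.castRingHom ℚ)).map (algebraMap ℚ (AlgebraicClosure ℚ))).Δ ≠ 0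
  rw [WeierstrassCurve.map_Δ, WeierstrassCurve.map_Δ]
  simp only [eq_intCast, ne_eq, map_eq_zero, Int.cast_eq_zero]
  exact hΔ

/-- The 3-torsion of an integral Weierstrass curve with nonzero discriminant is nontrivial over
`ℚ̄`. -/
theorem nontrivial_torsion_three [DecidableEq (AlgebraicClosure ℚ)] (W₀ : WeierstrassCurve ℤ)
    (hΔ : W₀.Δ ≠ 0) :
    Nontrivial (Submodule.torsionBy ℤ
      ((W₀.map (Int.castRingHom ℚ))⁄(AlgebraicClosure ℚ)).Point ((3 : ℕ) : ℤ)) := by
  apply nontrivial_torsionBy_of_exists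
  obtain ⟨P, hP0, hP⟩ := exists_three_torsion (baseChange_Δ_ne_zero W₀ hΔ)
  exact ⟨P, hP0, by simpa using hP⟩

/-- The 5-torsion of an integral Weierstrass curve with nonzero discriminant is nontrivial over
`ℚ̄`. -/
theorem nontrivial_torsion_five [DecidableEq (AlgebraicClosure ℚ)] (W₀ : WeierstrassCurve ℤ)
    (hΔ : W₀.Δ ≠ 0) :
    Nontrivial (Submodule.torsionBy ℤ
      ((W₀.map (Int.castRingHom ℚ))⁄(AlgebraicClosure ℚ)).Point ((5 : ℕ) : ℤ)) := by
  apply nontrivial_torsionBy_of_exists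
  obtain ⟨P, hP0, hP⟩ := exists_five_torsion (baseChange_Δ_ne_zero W₀ hΔ)
  exact ⟨P, hP0, by simpa using hP⟩

end Fermat.Agent.S51
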