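import Mathlib
import Fermat.Prelude.Def_FLTPrelim_GaloisRep
import Fermat.Prelude.Def_FLTPrelim_ModularRep

set_option autoImplicit false

namespace Fermat.Agent.S51.Three

open WeierstrassCurve WeierstrassCurve.Affine

noncomputable section

section Formulas

variable {F : Type*} [Field F] (V : Affine F)

/-- value of the 3-division polynomial -/
def psi3 (x : F) : F := 3 * x ^ 4 + V.b₂ * x ^ 3 + 3 * V.b₄ * x ^ 2 + 3 * V.b₆ * x + V.b₈

/-- value of the square of the 2-division polynomial -/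
def psi2sq (x : F) : F := 4 * x ^ 3 + V.b₂ * x ^ 2 + 2 * V.b₄ * x + V.b₆

/-- numerator of the duplication formula -/
def phi2 (x : F) : F := x ^ 4 - V.b₄ * x ^ 2 - 2 * V.b₆ * x - V.b₈

lemma psi2sq_eq {x y : F} (h : V.Equation x y) : psi2sq V x = (y - V.negY x y) ^ 2 := by
  rw [equation_iff] at h
  simp only [psi2sq, negY, b₂, b₄, b₆]
  linear_combination (-4) * h

variable [DecidableEq F]

lemma addX_self_mul_psi2sq {x y : F} (h : V.Equation x y) (hy : y ≠ V.negY x y) :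
    V.addX x x (V.slope x x y y) * psi2sq V x = phi2 V x := by
  have hd : y - V.negY x y ≠ 0 := sub_ne_zero.mpr hy
  rw [psi2sq_eq V h, slope_of_Y_ne rfl hy]
  rw [equation_iff] at h
  simp only [addX, phi2, b₄, b₆, b₈]
  field_simp
  simp only [negY] at hd ⊢
  linear_combination (-(8 * x + V.a₁ ^ 2 + 4 * V.a₂)) * h

lemma addX_self_sub_mul_psi2sq {x y : F} (h : V.Equation x y) (hy : y ≠ V.negY x y) :
    (V.addX x x (V.slope x x y y) - x) * psi2sq V x = - psi3 V x := by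
  have hd : y - V.negY x y ≠ 0 := sub_ne_zero.mpr hy
  rw [psi2sq_eq V h, slope_of_Y_ne rfl hy]
  rw [equation_iff] at h
  simp only [addX, psi3, b₂, b₄, b₆, b₈]
  field_simp
  simp only [negY] at hd ⊢
  linear_combination (-(12 * x + V.a₁ ^ 2 + 4 * V.a₂)) * h

omit [DecidableEq F] in
/-- a common zero of `psi2sq` and `psi3` forces the discriminant to vanish -/
lemma Δ_eq_zero_of_psi2sq_psi3 (h2 : (2 : F) ≠ 0) {x : F} (hf : psi2sq V x = 0) (hp : psi3 V x = 0) :
    V.Δ = 0 := by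
  have hrel := V.b_relation
  -- derivative of psi2sq vanishes
  have hder : (12 * x ^ 2 + 2 * V.b₂ * x + 2 * V.b₄) ^ 2 = 0 := by
    simp only [psi2sq, psi3] at hf hp
    linear_combination (2 * (24 * x + 2 * V.b₂)) * hf - 16 * hp + 4 * hrel
  have hder' : 12 * x ^ 2 + 2 * V.b₂ * x + 2 * V.b₄ = 0 := by
    simpa using hder
  have h64 : (-64 : F) * V.Δ = 0 := by
    simp only [psi2sq] at hf
    have hΔ : V.Δ = -V.b₂ ^ 2 * V.b₈ - 8 * V.b₄ ^ 3 - 27 * V.b₆ ^ 2 + 9 * V.b₂ * V.b₄ * V.b₆ := rfl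
    rw [hΔ]
    linear_combination
      (96 * x * V.b₂ ^ 2 - 2304 * x * V.b₄ + 16 * V.b₂ ^ 3 - 480 * V.b₂ * V.b₄ + 1728 * V.b₆) * hf
      + (-32 * x ^ 2 * V.b₂ ^ 2 + 768 * x ^ 2 * V.b₄ - 8 * x * V.b₂ ^ 3 + 224 * x * V.b₂ * V.b₄
          - 576 * x * V.b₆ - 8 * V.b₂ ^ 2 * V.b₄ - 48 * V.b₂ * V.b₆ + 256 * V.b₄ ^ 2) * hder'
      + (16 * V.b₂ ^ 2) * hrel
  have h64' : (64 : F) ≠ 0 := by
    have : (64 : F) = 2 ^ 6 := by norm_num
    rw [this]
    exact pow_ne_zero _ h2
  have : V.Δ = 0 := by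
    rcases mul_eq_zero.mp h64 with h | h
    · exact absurd (neg_eq_zero.mp h) h64'
    · exact h
  exact this

end Formulas

section Points

variable {F : Type*} [Field F] [DecidableEq F] (V : Affine F)

lemma three_zsmul_iff (P : V.Point) : (3 : ℤ) • P = 0 ↔ P + P = -P := by
  have : (3 : ℤ) • P = P + P + P := by
    rw [show (3 : ℤ) = 1 + 1 + 1 by norm_num, add_smul, add_smul, one_smul]
  rw [this, add_eq_zero_iff_eq_neg]

/-- a nonzero 3-torsion point has `psi3 x = 0` -/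
lemma psi3_eq_zero_of_three_zsmul {x y : F} (h : V.Nonsingular x y)
    (h3 : (3 : ℤ) • (Point.some x y h) = 0) : psi3 V x = 0 := by
  rw [three_zsmul_iff] at h3
  by_cases hy : y = V.negY x y
  · rw [Point.add_self_of_Y_eq hy] at h3
    exact absurd (neg_eq_zero.mp h3.symm) (Point.some_ne_zero h)
  · rw [Point.add_self_of_Y_ne hy, Point.neg_some, Point.some.injEq] at h3
    have := addX_self_sub_mul_psi2sq V h.1 hy
    rw [h3.1, sub_self, zero_mul] at this
    exact neg_eq_zero.mp this.symm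

/-- a point with `psi3 x = 0` is 3-torsion -/
lemma three_zsmul_eq_zero_of_psi3 (hΔ : V.Δ ≠ 0) (h2 : (2 : F) ≠ 0) {x y : F}
    (h : V.Nonsingular x y) (hp : psi3 V x = 0) : (3 : ℤ) • (Point.some x y h) = 0 := by
  rw [three_zsmul_iff]
  have hy : y ≠ V.negY x y := by
    intro hy
    apply hΔ
    apply Δ_eq_zero_of_psi2sq_psi3 V h2 _ hp
    rw [psi2sq_eq V h.1, ← hy, sub_self]
    ring
  have hne : psi2sq V x ≠ 0 := by
    rw [psi2sq_eq V h.1]
    exact pow_ne_zero _ (sub_ne_zero.mpr hy)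
  have hX : V.addX x x (V.slope x x y y) = x := by
    have := addX_self_sub_mul_psi2sq V h.1 hy
    rw [hp, neg_zero] at this
    rcases mul_eq_zero.mp this with h' | h'
    · exact sub_eq_zero.mp h'
    · exact absurd h' hne
  rw [Point.add_self_of_Y_ne hy]
  rcases Point.X_eq_iff.mp hX with h' | h'
  · -- P + P = P is impossible
    exfalso
    have h2P : Point.some x y h + Point.some x y h = Point.some x y h := by
      rw [Point.add_self_of_Y_ne hy]; exact h'
    have : Point.some x y h = 0 := by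
      have := congrArg (fun Q => Q - Point.some x y h) h2P
      simpa using this
    exact Point.some_ne_zero h this
  · exact h'

omit [DecidableEq F] in
lemma eval_Ψ₃ (x : F) : (WeierstrassCurve.Ψ₃ V).eval x = psi3 V x := by
  simp [WeierstrassCurve.Ψ₃, psi3]

omit [DecidableEq F] in
lemma exists_psi3_root [IsAlgClosed F] (h3 : (3 : F) ≠ 0) : ∃ x : F, psi3 V x = 0 := by
  have hdeg : (WeierstrassCurve.Ψ₃ V).degree ≠ 0 := by
    rw [Polynomial.degree_eq_natDegree (WeierstrassCurve.Ψ₃_ne_zero V h3),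
      WeierstrassCurve.natDegree_Ψ₃ V h3]
    norm_num
  obtain ⟨x, hx⟩ := IsAlgClosed.exists_root _ hdeg
  exact ⟨x, by rw [← eval_Ψ₃]; exact hx⟩

omit [DecidableEq F] in
lemma exists_y [IsAlgClosed F] (h2 : (2 : F) ≠ 0) (x : F) : ∃ y : F, V.Equation x y := by
  obtain ⟨s, hs⟩ := IsAlgClosed.exists_eq_mul_self (psi2sq V x)
  refine ⟨(s - V.a₁ * x - V.a₃) / 2, ?_⟩
  rw [equation_iff]
  simp only [psi2sq, b₂, b₄, b₆] at hs
  field_simp
  linear_combination (-1) * hs

/-- Existence of a nonzero 3-torsion point over an algebraically closed field. -/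
lemma exists_three_torsion [IsAlgClosed F] (hΔ : V.Δ ≠ 0) (h2 : (2 : F) ≠ 0) (h3 : (3 : F) ≠ 0) :
    ∃ P : V.Point, P ≠ 0 ∧ (3 : ℤ) • P = 0 := by
  obtain ⟨x, hx⟩ := exists_psi3_root V h3
  obtain ⟨y, hy⟩ := exists_y V h2 x
  have hns : V.Nonsingular x y := (equation_iff_nonsingular_of_Δ_ne_zero hΔ).mp hy
  exact ⟨Point.some x y hns, Point.some_ne_zero hns, three_zsmul_eq_zero_of_psi3 V hΔ h2 hns hx⟩

end Points

end

end Fermat.Agent.S51.Three
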