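import Mathlib

set_option autoImplicit false

namespace Fermat.Agent.S51.A

open WeierstrassCurve WeierstrassCurve.Affine

variable {F : Type} [Field F] (W : WeierstrassCurve F)

/-- value of the 3-division polynomial -/
def psi3 (x : F) : F := 3 * x ^ 4 + W.b₂ * x ^ 3 + 3 * W.b₄ * x ^ 2 + 3 * W.b₆ * x + W.b₈

/-- value of the squared 2-division polynomial -/
def f2 (x : F) : F := 4 * x ^ 3 + W.b₂ * x ^ 2 + 2 * W.b₄ * x + W.b₆

theorem equation_iff' (x y : F) : W.toAffine.Equation x y ↔
    y ^ 2 + W.a₁ * x * y + W.a₃ * y = x ^ 3 + W.a₂ * x ^ 2 + W.a₄ * x + W.a₆ :=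
  W.toAffine.equation_iff x y

theorem sub_negY (x y : F) : y - W.toAffine.negY x y = 2 * y + W.a₁ * x + W.a₃ := by
  simp only [Affine.negY]; ring

theorem sub_negY_sq {x y : F} (h : W.toAffine.Equation x y) :
    (y - W.toAffine.negY x y) ^ 2 = f2 W x := by
  rw [equation_iff'] at h
  rw [sub_negY]
  simp only [f2, WeierstrassCurve.b₂, WeierstrassCurve.b₄, WeierstrassCurve.b₆]
  linear_combination 4 * h

theorem delta_eq_combination (x : F) :
    W.Δ = (-36 * x ^ 3 - 9 * W.b₂ * x ^ 2 + (W.b₂ ^ 2 - 42 * W.b₄) * x + W.b₂ * W.b₄ - 27 * W.b₆)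
        * f2 W x
      + (48 * x ^ 2 + 8 * W.b₂ * x - W.b₂ ^ 2 + 32 * W.b₄) * psi3 W x := by
  simp only [f2, psi3, WeierstrassCurve.Δ, WeierstrassCurve.b₂, WeierstrassCurve.b₄,
    WeierstrassCurve.b₆, WeierstrassCurve.b₈]
  ring

theorem f2_ne_zero_of_psi3 (hΔ : W.Δ ≠ 0) {x : F} (h3 : psi3 W x = 0) : f2 W x ≠ 0 := by
  intro hf
  apply hΔ
  rw [delta_eq_combination W x, hf, h3, mul_zero, mul_zero, add_zero]

variable [DecidableEq F]

theorem dblX_sub_mul {x y : F} (h : W.toAffine.Equation x y) (hy : y ≠ W.toAffine.negY x y) :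
    (W.toAffine.addX x x (W.toAffine.slope x x y y) - x) * f2 W x = - psi3 W x := by
  have hψ : y - W.toAffine.negY x y ≠ 0 := sub_ne_zero.mpr hy
  rw [Affine.slope_of_Y_ne rfl hy, ← sub_negY_sq W h]
  simp only [Affine.addX]
  rw [equation_iff'] at h
  have hψ' := sub_negY W x y
  field_simp
  rw [hψ']
  simp only [psi3, WeierstrassCurve.b₂, WeierstrassCurve.b₄, WeierstrassCurve.b₆,
    WeierstrassCurve.b₈]
  linear_combination (-(12 * x + W.a₁ ^ 2 + 4 * W.a₂)) * h

end Fermat.Agent.S51.A

namespace Fermat.Agent.S51.A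

open WeierstrassCurve WeierstrassCurve.Affine

variable {F : Type} [Field F] (W : WeierstrassCurve F) [DecidableEq F]

theorem three_nsmul_some_eq_zero_iff (hΔ : W.Δ ≠ 0) {x y : F} (h : W.toAffine.Nonsingular x y) :
    (3 : ℕ) • (Point.some x y h : W.toAffine.Point) = 0 ↔ psi3 W x = 0 := by
  have h3 : (3 : ℕ) • (Point.some x y h : W.toAffine.Point)
      = (Point.some x y h + Point.some x y h) + Point.some x y h := by
    rw [succ_nsmul, two_nsmul]
  rw [h3]
  constructor
  · intro h0
    by_cases hy : y = W.toAffine.negY x y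
    · rw [Point.add_self_of_Y_eq hy, zero_add] at h0
      exact absurd h0 (Point.some_ne_zero h)
    · rw [Point.add_self_of_Y_ne hy] at h0
      have h1 := eq_neg_of_add_eq_zero_left h0
      rw [Point.neg_some] at h1
      have hx := (Point.some.injEq _ _ _ _ _ _).mp h1
      have h2 := dblX_sub_mul W h.1 hy
      rw [hx.1, sub_self, zero_mul] at h2
      exact neg_eq_zero.mp h2.symm
  · intro hpsi
    have hf := f2_ne_zero_of_psi3 W hΔ hpsi
    have hy : y ≠ W.toAffine.negY x y := by
      intro hy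
      apply hf
      rw [← sub_negY_sq W h.1, sub_eq_zero.mpr hy]
      ring
    rw [Point.add_self_of_Y_ne hy]
    have h2 := dblX_sub_mul W h.1 hy
    rw [hpsi, neg_zero] at h2
    have hx : W.toAffine.addX x x (W.toAffine.slope x x y y) = x := by
      rcases mul_eq_zero.mp h2 with h' | h'
      · exact sub_eq_zero.mp h'
      · exact absurd h' hf
    have hns := Affine.nonsingular_add h h fun hxy => hy hxy.right
    rcases (Point.X_eq_iff (h₁ := hns) (h₂ := h)).mp hx with h' | h'
    · exfalso
      have h4 : Point.some x y h + Point.some x y h = Point.some x y h := by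
        rw [Point.add_self_of_Y_ne hy]; exact h'
      have h5 : Point.some x y h = 0 := by
        have := congrArg (fun P => P - Point.some x y h) h4
        simpa using this
      exact Point.some_ne_zero h h5
    · rw [h', neg_add_cancel]

end Fermat.Agent.S51.A
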